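import Fermat.Agent.NV.Defs

set_option autoImplicit false

/-!
# NV task A5-RootUnity

Two holomorphic functions on `ℍ` with the same `m`-th power differ by a constant `m`-th root of `1`.

SKETCH.  `holSub` is a domain (`TPt_injective τ` embeds it in the field `LaurentSeries ℂ`).
With `ζ` a primitive `m`-th root of unity in `ℂ` (`Complex.isPrimitiveRoot_exp`),
`h₁ ^ m - h₂ ^ m = ∏_{μ ∈ nthRootsFinset m} (h₁ - μ h₂)` (`IsPrimitiveRoot.pow_sub_pow_eq_prod_sub_mul`,
applied in the commutative ring `holSub`, or after applying `TPt τ` in `LaurentSeries ℂ`), so one factor is `0`.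
-/

open UpperHalfPlane ModularForm CongruenceSubgroup
open scoped MatrixGroups Manifold

namespace Fermat.Agent.NV

open Fermat.Agent.S24

/-- the ring of holomorphic functions on `ℍ` has no zero divisors. -/
theorem eq_zero_or_eq_zero_of_mul {h₁ h₂ : ℍ → ℂ} (H₁ : MDiff h₁) (H₂ : MDiff h₂)
    (h : ∀ z, h₁ z * h₂ z = 0) : h₁ = 0 ∨ h₂ = 0 := by
  have key : TPt UpperHalfPlane.I (⟨h₁, H₁⟩ : holSub) * TPt UpperHalfPlane.I (⟨h₂, H₂⟩ : holSub)
      = 0 := by
    rw [← map_mul, ← map_zero (TPt UpperHalfPlane.I)]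
    congr 1
    apply Subtype.ext
    funext z
    exact h z
  rcases mul_eq_zero.1 key with h' | h'
  · left
    have := TPt_injective UpperHalfPlane.I (h'.trans (map_zero _).symm)
    exact congrArg Subtype.val this
  · right
    have := TPt_injective UpperHalfPlane.I (h'.trans (map_zero _).symm)
    exact congrArg Subtype.val this

theorem eq_mul_of_pow_eq {m : ℕ} (hm : 0 < m) {h₁ h₂ : ℍ → ℂ} (H₁ : MDiff h₁) (H₂ : MDiff h₂)
    (h : ∀ z, h₁ z ^ m = h₂ z ^ m) : ∃ ζ : ℂ, ζ ^ m = 1 ∧ ∀ z, h₁ z = ζ * h₂ z := by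
  have hζ := Complex.isPrimitiveRoot_exp m hm.ne'
  set ζ := Complex.exp (2 * Real.pi * Complex.I / m)
  -- general statement on finite products
  have hprod : ∀ (S : Finset ℂ), (∀ z, ∏ μ ∈ S, (h₁ z - μ * h₂ z) = 0) →
      ∃ μ ∈ S, ∀ z, h₁ z = μ * h₂ z := by
    intro S
    induction S using Finset.induction_on with
    | empty => intro h; simp at h
    | insert a S ha ih =>
      intro hS
      have hmd : MDiff fun z => ∏ μ ∈ S, (h₁ z - μ * h₂ z) := by
        have : (fun z => ∏ μ ∈ S, (h₁ z - μ * h₂ z)) =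
            ((∏ μ ∈ S, ((⟨h₁, H₁⟩ : holSub) - (⟨fun _ => μ, mdifferentiable_const⟩ : holSub) *
              (⟨h₂, H₂⟩ : holSub)) : holSub) : ℍ → ℂ) := by
          funext z
          rw [SubmonoidClass.coe_finsetProd, Finset.prod_apply]
          rfl
        rw [this]
        exact Subtype.property _
      have hmd1 : MDiff fun z => h₁ z - a * h₂ z :=
        ((⟨h₁, H₁⟩ : holSub) - (⟨fun _ => a, mdifferentiable_const⟩ : holSub) *
              (⟨h₂, H₂⟩ : holSub)).2
      rcases eq_zero_or_eq_zero_of_mul hmd1 hmd (fun z => by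
        have := hS z
        rwa [Finset.prod_insert ha] at this) with h' | h'
      · exact ⟨a, Finset.mem_insert_self _ _, fun z => sub_eq_zero.1 (congrFun h' z)⟩
      · obtain ⟨μ, hμ, hh⟩ := ih (fun z => congrFun h' z)
        exact ⟨μ, Finset.mem_insert_of_mem hμ, hh⟩
  obtain ⟨μ, hμ, hh⟩ := hprod (Polynomial.nthRootsFinset m (1 : ℂ)) (fun z => by
    rw [← hζ.pow_sub_pow_eq_prod_sub_mul _ _ hm, h z, sub_self])
  exact ⟨μ, (Polynomial.mem_nthRootsFinset hm _).1 hμ, hh⟩

end Fermat.Agent.NV
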