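import Fermat.Agent.NV.Equiv

set_option autoImplicit false

/-!
# NV task R1-RootPer

Roots of weakly holomorphic functions are weakly holomorphic.

SKETCH.  `IsPer N f = ∃ k, IsBd N (f * Δ ^ k)`, `IsBd N = N-periodic ∧ MDiff ∧ bounded at i∞`.
If `h ^ m * Δ ^ k` is bounded then `(h * Δ ^ k) ^ m = (h ^ m * Δ ^ k) * Δ ^ (k (m-1))` is bounded, hence `h * Δ ^ k`
is bounded (`‖x‖ ^ m ≤ C → ‖x‖ ≤ max 1 C`).
For `mem_Wh_of_pow`: `act g h` is holomorphic, `(act g h) ^ m = act g (h ^ m) ∈ perSub N`, and it is `N`-periodic since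
`act (T ^ N) (act g h) = act g (act (g⁻¹ T^N g) h)`, `g⁻¹ T^N g ∈ Γ(N) ⊆ Γ₀(N)` has trace `2` so `χ = 1` on it.
(`(act T⁻¹ f) z = f (z + 1)`, see `expA_coe_T_inv_smul`, `expA_act_T_ofComplex` in `S24/ExpandA.lean`.)
-/

open UpperHalfPlane ModularForm CongruenceSubgroup
open scoped MatrixGroups Manifold

namespace Fermat.Agent.NV

open Fermat.Agent.S24 Fermat.Agent.S16

namespace RootPer

theorem coe_T_pow_inv_smul (N : ℕ) (z : ℍ) :
    (((ModularGroup.T ^ N)⁻¹ • z : ℍ) : ℂ) = z - N := by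
  have := ModularGroup.coe_T_zpow_smul_eq z (n := -(N : ℤ))
  rw [zpow_neg, zpow_natCast] at this
  rw [this]
  push_cast
  ring

theorem periodic_of_act {N : ℕ} {h : ℍ → ℂ} (hper : act (ModularGroup.T ^ N) h = h) :
    Function.Periodic (h ∘ ofComplex) ((N : ℝ) : ℂ) := by
  intro z
  by_cases hz : 0 < z.im
  · have hz' : 0 < (z + ((N : ℝ) : ℂ)).im := by simpa using hz
    have h1 := congrFun hper ⟨z + ((N : ℝ) : ℂ), hz'⟩
    rw [act_apply] at h1
    simp only [Function.comp_apply]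
    rw [ofComplex_apply_of_im_pos hz, ofComplex_apply_of_im_pos hz', ← h1]
    congr 1
    apply UpperHalfPlane.ext
    rw [coe_T_pow_inv_smul]
    simp
  · have hz1 : z.im ≤ 0 := not_lt.mp hz
    have hz' : (z + ((N : ℝ) : ℂ)).im ≤ 0 := by simpa using hz1
    simp only [Function.comp_apply]
    rw [ofComplex_apply_of_im_nonpos hz1, ofComplex_apply_of_im_nonpos hz']

theorem bdd_of_pow {m : ℕ} (hm : 0 < m) {f : ℍ → ℂ} (hf : IsBoundedAtImInfty (f ^ m)) :
    IsBoundedAtImInfty f := by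
  obtain ⟨M, A, h⟩ := isBoundedAtImInfty_iff.mp hf
  rw [isBoundedAtImInfty_iff]
  refine ⟨max 1 M, A, fun z hz => ?_⟩
  have h1 := h z hz
  rw [Pi.pow_apply, norm_pow] at h1
  by_cases h2 : ‖f z‖ ≤ 1
  · exact h2.trans (le_max_left _ _)
  · have h3 : 1 ≤ ‖f z‖ := (not_le.mp h2).le
    exact ((le_self_pow₀ h3 hm.ne').trans h1).trans (le_max_right _ _)

end RootPer

theorem mem_perSub_of_pow {N m : ℕ} (hm : 0 < m) {h : ℍ → ℂ} (hh : MDiff h)
    (hper : act (ModularGroup.T ^ N) h = h) (hy : h ^ m ∈ perSub N) : h ∈ perSub N := by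
  obtain ⟨k, hk⟩ := hy
  refine ⟨k, ?_, hh.mul ((isBd_discriminant N).pow k).2.1, ?_⟩
  · exact (RootPer.periodic_of_act hper).mul ((isBd_discriminant N).pow k).1
  · apply RootPer.bdd_of_pow hm
    have h1 := (hk.mul ((isBd_discriminant N).pow (k * (m - 1)))).2.2
    have h2 : (h * discriminant ^ k) ^ m = h ^ m * discriminant ^ k * discriminant ^ (k * (m - 1)) := by
      rw [mul_pow, mul_assoc, ← pow_add, ← pow_mul]
      congr 2
      obtain ⟨m', rfl⟩ : ∃ m', m = m' + 1 := ⟨m - 1, by omega⟩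
      simp
      ring
    rw [h2]
    exact h1

/-- the trace is invariant under conjugation. -/
theorem smallTrace_conj (g ε : SL(2, ℤ)) (h : SmallTrace ε) : SmallTrace (g⁻¹ * ε * g) := by
  unfold SmallTrace at h ⊢
  have : ((g⁻¹ * ε * g : SL(2, ℤ)) : Matrix (Fin 2) (Fin 2) ℤ).trace
      = (ε : Matrix (Fin 2) (Fin 2) ℤ).trace := by
    rw [Matrix.SpecialLinearGroup.coe_mul, Matrix.trace_mul_comm, ← Matrix.SpecialLinearGroup.coe_mul,
      ← mul_assoc, mul_inv_cancel, one_mul]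
  rw [this]
  exact h

/-- conjugates of `T ^ N` lie in `Γ₀(N)` and have small trace. -/
theorem conj_T_pow_mem (N : ℕ) (g : SL(2, ℤ)) :
    g⁻¹ * ModularGroup.T ^ N * g ∈ Gamma0 N ∧ SmallTrace (g⁻¹ * ModularGroup.T ^ N * g) := by
  have hT : ((ModularGroup.T ^ N : SL(2, ℤ)) : Matrix (Fin 2) (Fin 2) ℤ) = !![1, (N : ℤ); 0, 1] := by
    have := ModularGroup.coe_T_zpow (N : ℤ)
    rwa [zpow_natCast] at this
  constructor
  · rw [Gamma0_mem]
    have : ((g⁻¹ * ModularGroup.T ^ N * g : SL(2, ℤ)) : Matrix (Fin 2) (Fin 2) ℤ) 1 0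
        = -(g 1 0) ^ 2 * N := by
      have e : ((g⁻¹ : SL(2, ℤ)) : Matrix (Fin 2) (Fin 2) ℤ)
          = !![g 1 1, -g 0 1; -g 1 0, g 0 0] := by
        rw [Matrix.SpecialLinearGroup.SL2_inv_expl]
        rfl
      rw [Matrix.SpecialLinearGroup.coe_mul, Matrix.SpecialLinearGroup.coe_mul, hT, e,
        Matrix.mul_fin_two, Matrix.mul_apply, Fin.sum_univ_two]
      simp
      ring
    rw [this]
    simp
  · apply smallTrace_conj
    unfold SmallTrace
    rw [hT]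
    simp [Matrix.trace_fin_two]

theorem mem_Wh_of_pow {N m : ℕ} (hm : 0 < m) {χ : Chr N} (hs : SmallTriv N χ) {h : ℍ → ℂ}
    (hh : MDiff h) (he : IsEqv N χ h) (hy : h ^ m ∈ Wh N) : h ∈ Wh N := by
  rw [mem_Wh] at hy ⊢
  intro g
  apply mem_perSub_of_pow hm (holB_mdiff_act hh g)
  · have h1 : ModularGroup.T ^ N * g = g * (g⁻¹ * ModularGroup.T ^ N * g) := by group
    rw [← act_mul, h1, act_mul]
    congr 1
    obtain ⟨hmem, hsm⟩ := conj_T_pow_mem N g
    have h2 := he.act_eq ⟨_, hmem⟩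
    have h3 : χ ⟨_, hmem⟩ = 1 := hs ⟨_, hmem⟩ hsm
    rw [h3] at h2
    rw [h2]
    funext z
    simp
  · rw [← map_pow]
    exact hy g

end Fermat.Agent.NV
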