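import Fermat.Agent.NV.InvC
import Fermat.Agent.NV.RootPer
import Fermat.Agent.NV.Kc.Basic

set_option autoImplicit false

/-!
# NV task K4c-PowC

Over `ℂ`: a function with trivial character is an `m`-th power.

SKETCH.  Data `(a, w₀, h)` with `h` invariant, `h ^ m = C24.PhiB a`.  `h ∈ Wh N` by `mem_Wh_of_pow` (`χ = 1`; `C24.PhiB a ∈ C24.Btil N`, `C24.act_mem_Btil`, `C24.Btil_le_perSub`).
`exists_ev` : `PhiB w' * h = PhiB u'`, so `PhiB (w' ^ m * a) = PhiB (u' ^ m)`, `w' ^ m * a = u' ^ m` (`C24.PhiB_injective`),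
`thetaIncl a = (thetaIncl u' / thetaIncl w') ^ m` and `f = (thetaIncl u' / thetaIncl w' / w₀) ^ m`.
-/

open UpperHalfPlane ModularForm CongruenceSubgroup
open scoped MatrixGroups Manifold

namespace Fermat.Agent.NV

open Fermat.Agent.S24

theorem exists_pow_of_hasChar_one_C {N : ℕ} [NeZero N] {m : ℕ} (hm : 0 < m) {f : C24.FN N}
    (h : C24.Ch.HasChar N m f 1) : ∃ w : C24.FN N, f = w ^ m := by
  obtain ⟨a, w₀, h, ha, hw₀, hθ, ⟨hh, hroot⟩, heq⟩ := h
  have hpow : h ^ m = (C24.PhiB N a : ℍ → ℂ) := funext fun z => by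
    rw [Pi.pow_apply]; exact hroot z
  have hWh : h ∈ Wh N := by
    refine mem_Wh_of_pow hm (χ := 1) (fun γ _ => rfl) hh heq ?_
    rw [mem_Wh, hpow]
    intro g
    exact C24.Btil_le_perSub N (C24.act_mem_Btil g (C24.PhiB N a).2)
  obtain ⟨u', w', hw', hev⟩ := exists_ev N h hWh heq
  have key : w' ^ m * a = u' ^ m := by
    apply C24.PhiB_injective N
    apply Subtype.ext
    funext z
    rw [map_mul, map_pow, map_pow]
    change ((C24.PhiB N w' : ℍ → ℂ) z) ^ m * (C24.PhiB N a : ℍ → ℂ) z = ((C24.PhiB N u' : ℍ → ℂ) z) ^ m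
    rw [← hev z, ← hroot z, mul_pow]
  have hw'θ : C24.thetaIncl N w' ≠ 0 := fun h0 =>
    hw' (C24.thetaIncl_injective N (h0.trans (map_zero _).symm))
  have key' := congrArg (C24.thetaIncl N) key
  rw [map_mul, map_pow, map_pow, hθ] at key'
  refine ⟨C24.thetaIncl N u' / C24.thetaIncl N w' / w₀, ?_⟩
  rw [div_pow, div_pow, ← key']
  field_simp

end Fermat.Agent.NV
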