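import Fermat.Agent.S24.Count

set_option autoImplicit false

/-!
# NV task B0-MultAbs

Refinement of `Fermat.Agent.S24.card_places_eq_card_orbits_theta` (same hypotheses): not only the number of places over
`x = 0` is the number of `ε`-orbits on `Q`, but the place attached to `q` satisfies
`(θ q f).order = μ * v.ord f` where `μ * (size of the orbit of q) = e₀`.

SKETCH.  Everything is in the proof of `Fermat.Agent.S24.AbsCount.main_place` (`S24/AbsCount.lean`): there
`pl q`, `m q` with `u.ord (emb q f) = m q * (pl q).ord f` (`hpl`), `hsurj` (every place with `0 < v.ord y` is some `pl q`),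
`heq` + `horbeq` (`(pl q).ord y = card (orbit q) = minimalPeriod (g • ·) q =: k`), and `u.ord Y = m q * (pl q).ord y`.
Copy that proof, keep these facts, then redo the two reductions
(`card_places_eq_card_orbits_of_char`, `card_places_eq_card_orbits_theta`).
`k ∣ j` for every `j` with `ε ^ j • q = q` is `Function.IsPeriodicPt.minimalPeriod_dvd`.
-/

namespace Fermat.Agent.NV

open AlgebraicCurve IntermediateField Polynomial Fermat.Agent.S24

variable {K F : Type*} [Field K] [Field F] [Algebra K F]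

namespace MultAbs

open Fermat.Agent.S24.AbsCount

theorem main_place_mult [IsAlgClosed K] [CharZero K] {M : Type*} [Field M] [Algebra K M]
    {G Q : Type*} [Group G] [MulAction G Q] [Fintype Q]
    (h : IsFF1 K F) {y : F} (hy : Transcendental K y) [Nonempty Q] (g : G)
    (emb : Q → (F →ₐ[K] M)) (u : Place K M) (Y : M) (hY : ∀ q, emb q y = Y) (hYpos : 0 < u.ord Y)
    (hchar : ∀ f : F, ∃ P : Polynomial K⟮y⟯, ∀ q0 : Q,
      P.map ((emb q0 : F →+* M).comp (algebraMap K⟮y⟯ F)) = ∏ q : Q, (X - C (emb q f)))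
    (hinv : ∀ q f, u.ord (emb (g • q) f) = u.ord (emb q f))
    (hdvd : ∀ (q : Q) (k : ℕ), g ^ k • q = q → ∀ f : F, f ≠ 0 → u.ord Y ∣ k * u.ord (emb q f))
    (hcard : Fintype.card Q ≤ Module.finrank K⟮y⟯ F) :
    ∃ (pl : Q → Place K F) (m : Q → ℤ),
      (∀ q (f : F), f ≠ 0 → u.ord (emb q f) = m q * (pl q).ord f) ∧
      (∀ v : Place K F, 0 < v.ord y → ∃ q, pl q = v) ∧ (∀ q, 0 < (pl q).ord y) ∧
      (∀ q, (pl q).ord y = (Function.minimalPeriod (g • ·) q : ℤ)) := by
  classical
  have hy0 : y ≠ 0 := fun h0 => hy (h0 ▸ isAlgebraic_zero)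
  have hval : ∀ q, IsVal K (fun f => u.ord (emb q f)) := fun q =>
    isVal_comp _ _ ⟨y, hy0, by rw [hY]; exact hYpos.ne'⟩
  choose pl m hm hpl hsub using fun q => (hval q).exists_place
  have hply : ∀ q, 0 < (pl q).ord y := by
    intro q
    have h1 := hpl q y hy0
    simp only [hY] at h1
    rw [h1] at hYpos
    exact (pos_iff_pos_of_mul_pos hYpos).mp (hm q)
  have hsurj : ∀ v : Place K F, 0 < v.ord y → ∃ q, pl q = v :=
    exists_eq_of_pos h hy emb u pl m hm hpl (fun q => by rw [hY]; exact hYpos) hchar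
  have hplg : ∀ q, pl (g • q) = pl q := by
    intro q
    apply Place.ext
    rw [hsub, hsub]
    ext f
    simp only [IsVal.mem_valuationSubring, hinv]
  have hplz : ∀ (n : ℤ) (q : Q), pl (g ^ n • q) = pl q := by
    intro n
    induction n using Int.induction_on with
    | zero => intro q; simp
    | succ n ih => intro q; rw [zpow_add_one, mul_smul, ih, hplg]
    | pred n ih =>
      intro q
      rw [zpow_sub_one, mul_smul, ih]
      have := hplg (g⁻¹ • q)
      rw [smul_inv_smul] at this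
      exact this.symm
  have horb : ∀ q q' : Q, q' ∈ MulAction.orbit (Subgroup.zpowers g) q → pl q' = pl q := by
    rintro q q' ⟨⟨a, n, rfl⟩, rfl⟩
    exact hplz n q
  -- the bound
  have hbound : ∀ q, (pl q).ord y ≤ (Fintype.card (MulAction.orbit (Subgroup.zpowers g) q) : ℤ) := by
    intro q
    rw [← MulAction.minimalPeriod_eq_card]
    set k := Function.minimalPeriod (g • ·) q with hk
    have hkq : g ^ k • q = q := by
      have := Function.iterate_minimalPeriod (f := (g • ·)) (x := q)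
      rwa [smul_iterate] at this
    obtain ⟨t, ht, ht0, -⟩ := exists_ord_eq_one (pl q)
    have h1 := hdvd q k hkq t ht0
    rw [hpl q t ht0, ht, mul_one] at h1
    have hkpos : 0 < k := by
      rw [hk, MulAction.minimalPeriod_eq_card]
      exact Fintype.card_pos_iff.mpr ⟨⟨q, MulAction.mem_orbit_self q⟩⟩
    have h2 : u.ord Y ≤ k * m q :=
      Int.le_of_dvd (mul_pos (by exact_mod_cast hkpos) (hm q)) h1
    have h3 := hpl q y hy0
    simp only [hY] at h3
    rw [h3] at h2
    have := hm q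
    nlinarith
  set Pl := (finite_ord_pos h hy).toFinset with hPl
  have hsum := sum_ord_pos h hy
  have hmaps : ((Finset.univ : Finset Q) : Set Q).MapsTo pl Pl := by
    intro q _
    simp only [hPl, Set.Finite.coe_toFinset, Set.mem_ofPred_eq]
    exact hply q
  have hcardQ := Finset.card_eq_sum_card_fiberwise hmaps
  rw [Finset.card_univ] at hcardQ
  have horbsub : ∀ q, (MulAction.orbit (Subgroup.zpowers g) q).toFinset ⊆
      Finset.univ.filter (fun a => pl a = pl q) := by
    intro q a ha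
    simp only [Set.mem_toFinset] at ha
    simp only [Finset.mem_filter, Finset.mem_univ, true_and]
    exact horb q a ha
  have hle : ∀ v ∈ Pl, v.ord y ≤ ((Finset.univ.filter (fun a => pl a = v)).card : ℤ) := by
    intro v hv
    simp only [hPl, Set.Finite.mem_toFinset, Set.mem_ofPred_eq] at hv
    obtain ⟨q, rfl⟩ := hsurj v hv
    refine (hbound q).trans ?_
    have := Finset.card_le_card (horbsub q)
    rw [Set.toFinset_card] at this
    exact_mod_cast this
  have hsumle : (∑ v ∈ Pl, v.ord y) ≤ ∑ v ∈ Pl, ((Finset.univ.filter (fun a => pl a = v)).card : ℤ) :=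
    Finset.sum_le_sum hle
  have hcardQ' : (Fintype.card Q : ℤ) = ∑ v ∈ Pl, ((Finset.univ.filter (fun a => pl a = v)).card : ℤ) := by
    rw [hcardQ]; push_cast; rfl
  have hn : Module.finrank K⟮y⟯ F = Fintype.card Q := by
    have h1 : (Module.finrank K⟮y⟯ F : ℤ) ≤ Fintype.card Q := by
      rw [← hsum, hcardQ']; exact hsumle
    have h2 : (Fintype.card Q : ℤ) ≤ Module.finrank K⟮y⟯ F := by exact_mod_cast hcard
    exact_mod_cast le_antisymm h1 h2
  have heq : ∀ v ∈ Pl, v.ord y = ((Finset.univ.filter (fun a => pl a = v)).card : ℤ) := by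
    refine (Finset.sum_eq_sum_iff_of_le hle).mp ?_
    rw [← hcardQ', hsum, hn]
  have horbeq : ∀ q, (MulAction.orbit (Subgroup.zpowers g) q).toFinset =
      Finset.univ.filter (fun a => pl a = pl q) := by
    intro q
    refine Finset.eq_of_subset_of_card_le (horbsub q) ?_
    have h1 := heq (pl q) (hmaps (Finset.mem_coe.mpr (Finset.mem_univ q)))
    have h2 := hbound q
    rw [Set.toFinset_card]
    rw [h1] at h2
    exact_mod_cast h2
  refine ⟨pl, m, hpl, hsurj, hply, fun q => ?_⟩
  rw [heq (pl q) (hmaps (Finset.mem_coe.mpr (Finset.mem_univ q))), ← horbeq q, Set.toFinset_card,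
    MulAction.minimalPeriod_eq_card]

theorem of_char_mult [IsAlgClosed K] [CharZero K] (h : IsFF1 K F) {y : F}
    (hy : Transcendental K y)
    {M : Type*} [Field M] [Algebra K M] {G Q : Type*} [Group G] [MulAction G Q] [Fintype Q]
    [Nonempty Q] (g : G)
    (emb : Q → (F →ₐ[K] M)) (w : M → ℤ) (hw : IsVal K w) (Y : M) (hY : ∀ q, emb q y = Y)
    (hYpos : 0 < w Y)
    (hchar : ∀ f : F, ∃ P : Polynomial K⟮y⟯, ∀ q0 : Q,
      P.map ((emb q0 : F →+* M).comp (algebraMap K⟮y⟯ F)) =
        ∏ q : Q, (Polynomial.X - Polynomial.C (emb q f)))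
    (hinv : ∀ q f, w (emb (g • q) f) = w (emb q f))
    (hdvd : ∀ (q : Q) (k : ℕ), g ^ k • q = q → ∀ f : F, f ≠ 0 → w Y ∣ k * w (emb q f))
    (hcard : Fintype.card Q ≤ Module.finrank K⟮y⟯ F) :
    ∃ (pl : Q → Place K F) (μ : Q → ℤ),
      (∀ q (f : F), f ≠ 0 → w (emb q f) = μ q * (pl q).ord f) ∧
      (∀ v : Place K F, 0 < v.ord y → ∃ q, pl q = v) ∧ (∀ q, 0 < (pl q).ord y) ∧
      (∀ q, (pl q).ord y = (Function.minimalPeriod (g • ·) q : ℤ)) := by
  obtain ⟨u, m, hm, hu, -⟩ := hw.exists_place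
  have hy0 : y ≠ 0 := fun h0 => hy (h0 ▸ isAlgebraic_zero)
  obtain ⟨q1⟩ := ‹Nonempty Q›
  have hY0 : Y ≠ 0 := by rw [← hY q1]; exact (map_ne_zero (emb q1)).mpr hy0
  have hne : ∀ q (f : F), f ≠ 0 → emb q f ≠ 0 := fun q f hf => (map_ne_zero (emb q)).mpr hf
  haveI : Nonempty Q := ⟨q1⟩
  obtain ⟨pl, m', h1, h2, h3, h4⟩ := main_place_mult h hy g emb u Y hY
    (by
      rw [hu Y hY0] at hYpos
      exact (pos_iff_pos_of_mul_pos hYpos).mp hm) hchar
    (by
      intro q f
      rcases eq_or_ne f 0 with rfl | hf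
      · simp
      have := hinv q f
      rw [hu _ (hne _ f hf), hu _ (hne _ f hf)] at this
      exact mul_left_cancel₀ hm.ne' this)
    (by
      intro q k hk f hf
      have := hdvd q k hk f hf
      rw [hu Y hY0, hu _ (hne _ f hf), mul_left_comm] at this
      exact (mul_dvd_mul_iff_left hm.ne').mp this) hcard
  refine ⟨pl, fun q => m * m' q, fun q f hf => ?_, h2, h3, h4⟩
  rw [hu _ (hne q f hf), h1 q f hf, mul_assoc]

end MultAbs

theorem exists_mult_theta [IsAlgClosed K] [CharZero K] (h : IsFF1 K F)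
    {x : F} (hx : Transcendental K x) {L : Type*} [Field L]
    {G Q : Type*} [Group G] [MulAction G Q] [Finite Q]
    (hQ : Nat.card Q = Module.finrank K⟮x⟯ F)
    (θ : Q → F →+* LaurentSeries L) (hθ : Function.Injective θ)
    (ι : K →+* L) (hK : ∀ q (a : K), θ q (algebraMap K F a) = HahnSeries.C (ι a))
    (hxx : ∀ q q', θ q x = θ q' x)
    (e₀ : ℕ) (he₀ : 0 < e₀) (hx₀ : ∀ q, (θ q x).order = e₀)
    (ε : G) (ζ : L) (hζ : IsPrimitiveRoot ζ e₀)
    (hρ : ∀ q (f : F), f ≠ 0 → (θ (ε • q) f).order = (θ q f).order ∧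
      (θ (ε • q) f).leadingCoeff = ζ ^ (θ q f).order * (θ q f).leadingCoeff) :
    ∃ (pl : Q → Place K F) (k : Q → ℕ) (μ : Q → ℤ),
      (∀ v : Place K F, 0 < v.ord x → ∃ q, pl q = v) ∧
      (∀ q, 0 < (pl q).ord x) ∧
      (∀ q, 0 < k q ∧ ε ^ k q • q = q ∧ (∀ j : ℕ, ε ^ j • q = q → k q ∣ j) ∧ μ q * k q = e₀) ∧
      (∀ q (f : F), f ≠ 0 → (θ q f).order = μ q * (pl q).ord f) := by
  classical
  haveI := Fintype.ofFinite Q
  haveI hfd : FiniteDimensional K⟮x⟯ F := h.finiteDimensional hx
  have hcard : Fintype.card Q = Module.finrank K⟮x⟯ F := by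
    rw [← hQ, Nat.card_eq_fintype_card]
  have hpos : 0 < Fintype.card Q := hcard ▸ Module.finrank_pos
  haveI hne : Nonempty Q := Fintype.card_pos_iff.mp hpos
  obtain ⟨q1⟩ := id hne
  letI : Algebra K (LaurentSeries L) :=
    ((HahnSeries.C : L →+* LaurentSeries L).comp ι).toAlgebra
  let emb : Q → (F →ₐ[K] LaurentSeries L) := fun q =>
    { θ q with commutes' := fun a => hK q a }
  have hemb : ∀ q f, emb q f = θ q f := fun _ _ => rfl
  have hw : IsVal K (fun m : LaurentSeries L => m.order) :=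
    Count.isVal_order fun a => ⟨ι a, rfl⟩
  haveI : CharZero K⟮x⟯ := charZero_of_injective_algebraMap (algebraMap K K⟮x⟯).injective
  have hx0 : x ≠ 0 := fun h0 => hx (h0 ▸ isAlgebraic_zero)
  have hagree : ∀ q q' (a : K⟮x⟯), θ q (algebraMap K⟮x⟯ F a) = θ q' (algebraMap K⟮x⟯ F a) := by
    intro q q' a
    have : (emb q).comp (K⟮x⟯.val) = (emb q').comp (K⟮x⟯.val) := by
      apply IntermediateField.adjoin_algHom_ext
      intro y hy
      rw [Set.mem_singleton_iff] at hy
      subst hy
      exact hxx q q'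
    exact congrArg (fun φ : K⟮x⟯ →ₐ[K] LaurentSeries L => φ a) this
  have hiter : ∀ (q : Q) (f : F), f ≠ 0 → ∀ k : ℕ,
      (θ (ε ^ k • q) f).order = (θ q f).order ∧
      (θ (ε ^ k • q) f).leadingCoeff = ζ ^ ((k : ℤ) * (θ q f).order) * (θ q f).leadingCoeff := by
    intro q f hf k
    induction k with
    | zero => simp
    | succ k ih =>
      obtain ⟨h1, h2⟩ := hρ (ε ^ k • q) f hf
      rw [pow_succ', mul_smul]
      refine ⟨h1.trans ih.1, ?_⟩
      rw [h2, ih.1, ih.2, ← mul_assoc, ← zpow_add₀ (hζ.ne_zero he₀.ne')]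
      congr 2
      push_cast
      ring
  obtain ⟨pl, μ, h1, h2, h3, h4⟩ := MultAbs.of_char_mult h hx ε emb (fun m => m.order) hw (θ q1 x)
    (fun q => hxx q q1) (by simp only [hx₀]; exact_mod_cast he₀)
    (fun f => Count.exists_charpoly θ hθ hagree hcard f)
    (by
      intro q f
      rcases eq_or_ne f 0 with rfl | hf
      · simp
      · exact (hρ q f hf).1)
    (by
      intro q k hk f hf
      obtain ⟨-, h2⟩ := hiter q f hf k
      rw [hk] at h2
      have hlc : (θ q f).leadingCoeff ≠ 0 :=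
        HahnSeries.leadingCoeff_ne_zero.mpr ((map_ne_zero (θ q)).mpr hf)
      have h3 : ζ ^ ((k : ℤ) * (θ q f).order) = 1 := by
        have := mul_right_cancel₀ hlc ((one_mul _).trans h2)
        exact this.symm
      have h4 := (hζ.zpow_eq_one_iff_dvd _).mp h3
      simp only [hx₀, hemb]
      exact h4) hcard.le
  refine ⟨pl, fun q => Function.minimalPeriod (ε • ·) q, μ, h2, h3, fun q => ⟨?_, ?_, ?_, ?_⟩,
    fun q f hf => h1 q f hf⟩
  · have := h3 q
    rw [h4 q] at this
    exact_mod_cast this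
  · have := Function.iterate_minimalPeriod (f := (ε • ·)) (x := q)
    rwa [smul_iterate] at this
  · intro j hj
    apply Function.IsPeriodicPt.minimalPeriod_dvd
    show (ε • ·)^[j] q = q
    rw [smul_iterate]
    exact hj
  · have := h1 q x hx0
    simp only [hemb, hx₀] at this
    rw [← h4 q, ← this]

end Fermat.Agent.NV
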