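import Fermat.Agent.NV.Kc.Charts
import Fermat.Agent.NV.Orbit
import Fermat.Prelude.Def_ModularCurve_X0ModL

set_option autoImplicit false

/-!
# NV task C3-Canon

A canonical representative of a class `f * (Fˣ)^m`, `F = C24.FN N`: it is fixed by every automorphism of `ℂ` which fixes the class.

SKETCH.  Notation: `K = Kc`, `j = C24.jF N`, `o g` = order of the Laurent series `g.1`, `lc g` = its leading coefficient, `σ g = arithmeticRingAut _ σ g` (coefficientwise).
For `n : ℕ` let `B n = {g ∈ F | ∀ v : Place K F, (0 ≤ v.ord j → 0 ≤ v.ord g) ∧ (v.ord j < 0 → n * v.ord j ≤ v.ord g)}` and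
`S n = {g | g ≠ 0 ∧ g ∈ B n ∧ ∃ w ≠ 0, g = f * w ^ m}`.
(a) `S n ≠ ∅` for some `n`: `f = u / w₀`, `u w₀ : A0` (`C24.thetaIncl_exists_div`), `g = f * w₀ ^ m = u * w₀ ^ (m-1) ∈ A0`.  Elements of `A0` have `0 ≤ v.ord` at the places with `0 ≤ v.ord j`
   (by `C24.Ch.exists_chart` and `order_TPt_nonneg`: in the first three cases the order of `theta .. (thetaIncl a) = TPt τ (..)` is `≥ 0`; in the cusp case `v.ord j < 0` because the order of `theta .. j` is `-N`; alternatively: the `Jser d` are integral over `K[j]`);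
   there are finitely many places with `v.ord j < 0` (`finite_ord_pos` for `j⁻¹`, see `S24/SumOrd.lean`), so `n` exists.
(b) `o` is bounded above on `S n`: `o = v∞.ord` for a place `v∞` (`IsVal.exists_place` for `g ↦ o g`, with `μ = 1` because `o j = -1`).  For `g ∈ S n` non constant, `∑_{v.ord g > 0} v.ord g = [F : K(g)] = ∑_{v.ord g < 0} (- v.ord g)`
   (`sum_ord_pos` for `g` and `g⁻¹`, `principal_adjoin_inv_eq`), and the right hand side is `≤ n * ∑_{v.ord j < 0} (- v.ord j) = n * [F : K(j)]`.  So `o g ≤ n * [F : K(j)]`.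
   (Alternative without places: `g` integral over `K[j]` and `g / j ^ n` integral over `K[1/j]`; the coefficients `a_i ∈ K[j]` of the minimal polynomial have degree `≤ n i`; `a_d ≠ 0` has `o ≤ 0`; so `o g ≤ n (d - 1)`.)
(c) Let `n₀` be minimal with `S n₀ ≠ ∅`, `k₀ = max o` on `S n₀`.  If `g₁ = f w₁ ^ m`, `g₂ = f w₂ ^ m ∈ S n₀` have `o = k₀`, then `o w₁ = o w₂`; let `c = lc w₁ / lc w₂`; if `w = w₁ - c w₂ ≠ 0` then `o w > o w₁` and
   `f w ^ m ∈ S n₀` (for every place, `m * v.ord w + v.ord f ≥ min_i (m * v.ord w_i + v.ord f)`), contradiction.  So `g₁ = c ^ m g₂`.  Since `K` is algebraically closed, `lc g₁⁻¹ = e ^ m`, and `g = f (e w₁) ^ m` has `lc g = 1`: there is exactly one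
   `g ∈ S n₀` with `o g = k₀`, `lc g = 1`.
(d) If `σ f = f * w ^ m`, then `σ` maps `S n` to itself: `σ j = j`, `(σ • v).ord (σ g) = v.ord g` (`AlgebraicCurve.SemilinearAut.ord_smul` with `ModularCurve.arithmeticGalois`), `σ (f w₁ ^ m) = f (w σ w₁) ^ m`; `o (σ g) = o g`, `lc (σ g) = σ (lc g)`.
   By uniqueness `σ g = g`.
Feel free to split this file (abstract uniqueness lemma / concrete inputs (a), (b), (d)) and to recruit.
-/

open UpperHalfPlane ModularForm CongruenceSubgroup
open scoped MatrixGroups Manifold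

namespace Fermat.Agent.NV

open Fermat.Agent.S24 Fermat.Agent.C24

namespace Canon

open AlgebraicCurve IntermediateField


variable {K F : Type*} [Field K] [Field F] [Algebra K F]

/-- regular where `x` is regular, poles bounded by `n (x)_∞`. -/
def InB (K : Type*) {F : Type*} [Field K] [Field F] [Algebra K F] (x : F) (n : ℕ) (g : F) : Prop :=
  ∀ v : Place K F, (0 ≤ v.ord x → 0 ≤ v.ord g) ∧ (v.ord x < 0 → n * v.ord x ≤ v.ord g)

theorem transcendental_inv' [IsAlgClosed K] {f : F} (hf : Transcendental K f) :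
    Transcendental K f⁻¹ := by
  apply transcendental_of_not_mem_range
  rintro ⟨a, ha⟩
  exact not_mem_range_of_transcendental hf ⟨a⁻¹, by rw [map_inv₀, ha, inv_inv]⟩

theorem finite_ord_neg [IsAlgClosed K] [CharZero K] (h : IsFF1 K F) (f : F) :
    {v : Place K F | v.ord f < 0}.Finite := by
  by_cases hr : f ∈ Set.range (algebraMap K F)
  · obtain ⟨a, rfl⟩ := hr
    convert Set.finite_empty
    ext v
    simp [ord_algebraMap]
  · have ht : Transcendental K f := transcendental_of_not_mem_range hr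
    refine (finite_ord_pos h (transcendental_inv' ht)).subset fun v hv => ?_
    simp only [Set.mem_ofPred_eq, Place.ord_inv] at hv ⊢
    omega

theorem sub_const_ne_zero {x : F} (hx : Transcendental K x) (c : K) :
    x - algebraMap K F c ≠ 0 := fun h0 =>
  hx ((sub_eq_zero.mp h0) ▸ isAlgebraic_algebraMap c)

theorem ord_sub_const_nonneg (v : Place K F) {x : F} (hv : 0 ≤ v.ord x) (c : K) :
    0 ≤ v.ord (x - algebraMap K F c) :=
  ord_nonneg_of_mem v (sub_mem (mem_of_ord_nonneg v hv) (v.algebraMap_mem' c))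

theorem exists_inB [IsAlgClosed K] [CharZero K] (h : IsFF1 K F) {x : F} (hx : Transcendental K x)
    (m : ℕ) (hm : 0 < m) (f : F) (hf : f ≠ 0) :
    ∃ (n : ℕ) (w : F), w ≠ 0 ∧ InB K x n (f * w ^ m) := by
  classical
  have hc : ∀ v : Place K F, ∃ c : K, 0 ≤ v.ord x → 0 < v.ord (x - algebraMap K F c) := by
    intro v
    by_cases hv : 0 ≤ v.ord x
    · obtain ⟨c, hc | hc⟩ := exists_const_sub h v hv
      · exact absurd (hc ▸ isAlgebraic_algebraMap c) hx
      · exact ⟨c, fun _ => hc⟩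
    · exact ⟨0, fun h' => absurd h' hv⟩
  choose c hc using hc
  set P : Finset (Place K F) := (finite_ord_neg h f).toFinset with hP
  set w : F := ∏ v ∈ P, (x - algebraMap K F (c v)) ^ (-v.ord f).toNat with hw
  have hfac : ∀ v ∈ P, (x - algebraMap K F (c v)) ^ (-v.ord f).toNat ≠ 0 :=
    fun v _ => pow_ne_zero _ (sub_const_ne_zero hx _)
  have hw0 : w ≠ 0 := Finset.prod_ne_zero_iff.mpr hfac
  have hg0 : f * w ^ m ≠ 0 := mul_ne_zero hf (pow_ne_zero _ hw0)
  have hfin : ∀ u : Place K F, 0 ≤ u.ord x → 0 ≤ u.ord (f * w ^ m) := by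
    intro u hu
    rw [u.ord_mul hf (pow_ne_zero _ hw0), ord_pow, hw, AbsCount.ord_prod u _ _ hfac]
    have hterm : ∀ v ∈ P, 0 ≤ u.ord ((x - algebraMap K F (c v)) ^ (-v.ord f).toNat) := by
      intro v _
      rw [ord_pow]
      exact mul_nonneg (by positivity) (ord_sub_const_nonneg u hu _)
    have hsum : 0 ≤ ∑ v ∈ P, u.ord ((x - algebraMap K F (c v)) ^ (-v.ord f).toNat) :=
      Finset.sum_nonneg hterm
    by_cases huP : u ∈ P
    · have h1 : u.ord ((x - algebraMap K F (c u)) ^ (-u.ord f).toNat) ≤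
          ∑ v ∈ P, u.ord ((x - algebraMap K F (c v)) ^ (-v.ord f).toNat) :=
        Finset.single_le_sum hterm huP
      rw [ord_pow] at h1
      have h2 := hc u hu
      have h3 : (((-u.ord f).toNat : ℕ) : ℤ) = -u.ord f := by
        apply Int.toNat_of_nonneg
        have : u.ord f < 0 := by simpa [hP] using huP
        omega
      rw [h3] at h1
      have h4 : u.ord f < 0 := by simpa [hP] using huP
      have hm' : (1 : ℤ) ≤ m := by exact_mod_cast hm
      nlinarith
    · have h4 : 0 ≤ u.ord f := by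
        have : ¬ u.ord f < 0 := by simpa [hP] using huP
        omega
      have hm' : (0 : ℤ) ≤ m := by positivity
      nlinarith [mul_nonneg hm' hsum]
  set Pinf : Finset (Place K F) := (finite_ord_neg h x).toFinset with hPinf
  refine ⟨∑ v ∈ Pinf, (-v.ord (f * w ^ m)).toNat, w, hw0, fun u => ⟨hfin u, fun hu => ?_⟩⟩
  have huP : u ∈ Pinf := by simpa [hPinf] using hu
  have h1 : (-u.ord (f * w ^ m)).toNat ≤ ∑ v ∈ Pinf, (-v.ord (f * w ^ m)).toNat :=
    Finset.single_le_sum (f := fun v : Place K F => (-v.ord (f * w ^ m)).toNat)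
      (fun _ _ => Nat.zero_le _) huP
  have h2 : -u.ord (f * w ^ m) ≤ ((-u.ord (f * w ^ m)).toNat : ℤ) := Int.self_le_toNat _
  have h3 : (((-u.ord (f * w ^ m)).toNat : ℕ) : ℤ) ≤
      ((∑ v ∈ Pinf, (-v.ord (f * w ^ m)).toNat : ℕ) : ℤ) := by exact_mod_cast h1
  have h4 : (0 : ℤ) ≤ ((∑ v ∈ Pinf, (-v.ord (f * w ^ m)).toNat : ℕ) : ℤ) := by positivity
  nlinarith

theorem ord_le [IsAlgClosed K] [CharZero K] (h : IsFF1 K F) {x : F} (hx : Transcendental K x)
    {n : ℕ} {g : F} (hB : InB K x n g) (v : Place K F) :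
    v.ord g ≤ n * Module.finrank K⟮x⟯ F := by
  classical
  have hnn : (0 : ℤ) ≤ n * Module.finrank K⟮x⟯ F := by positivity
  by_cases hr : g ∈ Set.range (algebraMap K F)
  · obtain ⟨a, rfl⟩ := hr
    rw [ord_algebraMap]
    exact hnn
  have ht : Transcendental K g := transcendental_of_not_mem_range hr
  have ht' := transcendental_inv' ht
  have hx' := transcendental_inv' hx
  rcases le_or_gt (v.ord g) 0 with hv | hv
  · exact hv.trans hnn
  have h1 : v.ord g ≤ ∑ u ∈ (finite_ord_pos h ht).toFinset, u.ord g :=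
    Finset.single_le_sum (f := fun u : Place K F => u.ord g)
      (fun u hu => by
        have : 0 < u.ord g := by simpa using hu
        exact this.le) (by simpa using hv)
  rw [sum_ord_pos h ht, ← principal_adjoin_inv_eq, ← sum_ord_pos h ht'] at h1
  refine h1.trans ?_
  rw [← principal_adjoin_inv_eq x, ← sum_ord_pos h hx', Finset.mul_sum]
  have hsub : (finite_ord_pos h ht').toFinset ⊆ (finite_ord_pos h hx').toFinset := by
    intro u hu
    have hu' : 0 < u.ord g⁻¹ := by simpa using hu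
    rw [Place.ord_inv] at hu'
    have : 0 < u.ord x⁻¹ := by
      rw [Place.ord_inv]
      by_contra hcon
      have := (hB u).1 (by omega)
      omega
    simpa using this
  refine (Finset.sum_le_sum (g := fun u : Place K F => (n : ℤ) * u.ord x⁻¹) fun u hu => ?_).trans
    (Finset.sum_le_sum_of_subset_of_nonneg hsub fun u hu _ => ?_)
  · have hu' : 0 < u.ord x⁻¹ := by simpa using hsub hu
    rw [Place.ord_inv] at hu' ⊢
    rw [Place.ord_inv]
    have := (hB u).2 (by omega)
    linarith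
  · have hu' : 0 < u.ord x⁻¹ := by simpa using hu
    positivity


theorem order_sub_gt {K : Type*} [Field K] {a b : LaurentSeries K} (ho : a.order = b.order)
    (hl : a.leadingCoeff = b.leadingCoeff) (hab : a - b ≠ 0) : a.order < (a - b).order := by
  by_contra hcon
  rw [not_lt] at hcon
  have h1 : (a - b).coeff (a - b).order ≠ 0 := by
    rw [← HahnSeries.leadingCoeff_eq]
    exact HahnSeries.leadingCoeff_ne_zero.mpr hab
  apply h1
  rw [HahnSeries.coeff_sub]
  rcases hcon.lt_or_eq with hlt | heq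
  · rw [HahnSeries.coeff_eq_zero_of_lt_order hlt,
      HahnSeries.coeff_eq_zero_of_lt_order (ho ▸ hlt), sub_zero]
  · rw [heq, ← HahnSeries.leadingCoeff_eq, ho, ← HahnSeries.leadingCoeff_eq, hl, sub_self]

theorem leadingCoeff_C {K : Type*} [Field K] (c : K) :
    (HahnSeries.C c : LaurentSeries K).leadingCoeff = c :=
  HahnSeries.leadingCoeff_of_single

theorem leadingCoeff_pow' {K : Type*} [Field K] (a : LaurentSeries K) (n : ℕ) :
    (a ^ n).leadingCoeff = a.leadingCoeff ^ n := by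
  induction n with
  | zero => simp
  | succ n ih => rw [pow_succ, HahnSeries.leadingCoeff_mul, ih, pow_succ]

theorem order_pow' {K : Type*} [Field K] (a : LaurentSeries K) (n : ℕ) :
    (a ^ n).order = n * a.order := by
  rcases eq_or_ne a 0 with rfl | ha
  · rcases Nat.eq_zero_or_pos n with rfl | hn
    · simp
    · simp [zero_pow hn.ne']
  induction n with
  | zero => simp
  | succ n ih =>
    rw [pow_succ, HahnSeries.order_mul (pow_ne_zero _ ha) ha, ih]
    push_cast
    ring


variable {K F : Type*} [Field K] [Field F] [Algebra K F]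

/-- the representatives of the class of `f` with bounded poles. -/
def InS (K : Type*) {F : Type*} [Field K] [Field F] [Algebra K F] (x f : F) (m n : ℕ) (g : F) :
    Prop :=
  g ≠ 0 ∧ InB K x n g ∧ ∃ w : F, w ≠ 0 ∧ g = f * w ^ m

theorem ord_const_mul (v : Place K F) {c : K} (hc : c ≠ 0) (y : F) :
    v.ord (algebraMap K F c * y) = v.ord y := by
  rcases eq_or_ne y 0 with rfl | hy
  · simp
  rw [v.ord_mul (by simpa using hc) hy, ord_algebraMap, zero_add]

theorem inB_combo {x f : F} {m n : ℕ} (hf : f ≠ 0) {w₁ w₂ : F}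
    (h1 : InB K x n (f * w₁ ^ m)) (h2 : InB K x n (f * w₂ ^ m)) (hw₁ : w₁ ≠ 0) (hw₂ : w₂ ≠ 0)
    {c : K} (hc : c ≠ 0) (hw : w₁ - algebraMap K F c * w₂ ≠ 0) :
    InB K x n (f * (w₁ - algebraMap K F c * w₂) ^ m) := by
  have key : ∀ v : Place K F, min (v.ord (f * w₁ ^ m)) (v.ord (f * w₂ ^ m)) ≤
      v.ord (f * (w₁ - algebraMap K F c * w₂) ^ m) := by
    intro v
    rw [v.ord_mul hf (pow_ne_zero _ hw₁), v.ord_mul hf (pow_ne_zero _ hw₂),
      v.ord_mul hf (pow_ne_zero _ hw), ord_pow, ord_pow, ord_pow]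
    have h3 : min (v.ord w₁) (v.ord w₂) ≤ v.ord (w₁ - algebraMap K F c * w₂) := by
      have := min_le_ord_add v (f := w₁) (g := -(algebraMap K F c * w₂))
        (by rwa [← sub_eq_add_neg])
      rwa [ord_neg, ord_const_mul v hc, ← sub_eq_add_neg] at this
    have hm : (0 : ℤ) ≤ m := by positivity
    rcases le_total (v.ord w₁) (v.ord w₂) with hle | hle
    · rw [min_eq_left hle] at h3
      exact (min_le_left _ _).trans (by nlinarith)
    · rw [min_eq_right hle] at h3
      exact (min_le_right _ _).trans (by nlinarith)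
  intro v
  refine ⟨fun hv => ?_, fun hv => ?_⟩
  · exact (le_min ((h1 v).1 hv) ((h2 v).1 hv)).trans (key v)
  · exact (le_min ((h1 v).2 hv) ((h2 v).2 hv)).trans (key v)

theorem exists_canonical_abs [IsAlgClosed K] [CharZero K] (h : IsFF1 K F) {x : F}
    (hx : Transcendental K x) (θ : F →+* LaurentSeries K)
    (hθ : ∀ a, θ (algebraMap K F a) = HahnSeries.C a) (hxo : (θ x).order ≠ 0)
    (m : ℕ) (hm : 0 < m) (f : F) (hf : f ≠ 0) :
    ∃ g : F, g ≠ 0 ∧ (∃ w : F, w ≠ 0 ∧ g = f * w ^ m) ∧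
      ∀ s : F →+* F, s x = x →
        (∀ v' : Place K F, ∃ v : Place K F, ∀ y, v'.ord (s y) = v.ord y) →
        (∀ y, (θ (s y)).order = (θ y).order) →
        (∀ y, (θ y).leadingCoeff = 1 → (θ (s y)).leadingCoeff = 1) →
        (∃ w : F, w ≠ 0 ∧ s f = f * w ^ m) → s g = g := by
  obtain ⟨n, w₀, hw₀, hB₀⟩ := exists_inB h hx m hm f hf
  have hne : ∀ y : F, y ≠ 0 → θ y ≠ 0 := fun y hy => (map_ne_zero θ).mpr hy
  have hx0 : x ≠ 0 := fun h0 => hx (h0 ▸ isAlgebraic_zero)
  have hval : IsVal K (fun y : F => (θ y).order) :=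
    { map_mul := fun a b ha hb => by
        simp only [map_mul]
        exact HahnSeries.order_mul (hne a ha) (hne b hb)
      map_add := fun a b _ _ hab => by
        simp only [map_add]
        exact HahnSeries.min_order_le_order_add (by rw [← map_add]; exact hne _ hab)
      map_const := fun a _ => by
        simp only [hθ]
        exact (HahnSeries.order_C).ge
      nontrivial := ⟨x, hx0, hxo⟩ }
  obtain ⟨vinf, μ, hμ, hvinf, -⟩ := hval.exists_place
  have hbound : ∀ g, InS K x f m n g → (θ g).order ≤ μ * (n * Module.finrank K⟮x⟯ F) := by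
    intro g hg
    rw [hvinf g hg.1]
    exact mul_le_mul_of_nonneg_left (ord_le h hx hg.2.1 vinf) hμ.le
  obtain ⟨k₀, ⟨g₁, hg₁, hk₁⟩, hmax⟩ := Int.exists_greatest_of_bdd
    (P := fun k => ∃ g, InS K x f m n g ∧ (θ g).order = k)
    ⟨μ * (n * Module.finrank K⟮x⟯ F), fun k ⟨g, hg, hk⟩ => hk ▸ hbound g hg⟩
    ⟨_, f * w₀ ^ m, ⟨mul_ne_zero hf (pow_ne_zero _ hw₀), hB₀, w₀, hw₀, rfl⟩, rfl⟩
  have hoform : ∀ w : F, w ≠ 0 → (θ (f * w ^ m)).order = (θ f).order + m * (θ w).order := by
    intro w hw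
    rw [map_mul, map_pow, HahnSeries.order_mul (hne f hf) (pow_ne_zero _ (hne w hw)), order_pow']
  have hmZ : (0 : ℤ) < m := by exact_mod_cast hm
  -- uniqueness
  have huniq : ∀ g g', InS K x f m n g → InS K x f m n g' → (θ g).order = k₀ →
      (θ g').order = k₀ → (θ g).leadingCoeff = 1 → (θ g').leadingCoeff = 1 → g = g' := by
    rintro g g' ⟨-, hB, w₁, hw₁, rfl⟩ ⟨-, hB', w₂, hw₂, rfl⟩ ho ho' hl hl'
    rw [hoform w₁ hw₁] at ho
    rw [hoform w₂ hw₂] at ho'
    have hoo : (θ w₁).order = (θ w₂).order := by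
      have : (m : ℤ) * (θ w₁).order = m * (θ w₂).order := by linarith
      exact mul_left_cancel₀ hmZ.ne' this
    have hl1 : (θ w₁).leadingCoeff ≠ 0 := HahnSeries.leadingCoeff_ne_zero.mpr (hne w₁ hw₁)
    have hl2 : (θ w₂).leadingCoeff ≠ 0 := HahnSeries.leadingCoeff_ne_zero.mpr (hne w₂ hw₂)
    set c : K := (θ w₁).leadingCoeff / (θ w₂).leadingCoeff with hc
    have hc0 : c ≠ 0 := div_ne_zero hl1 hl2
    by_cases hw : w₁ - algebraMap K F c * w₂ = 0
    · have hw' : w₁ = algebraMap K F c * w₂ := sub_eq_zero.mp hw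
      have e1 : f * w₁ ^ m = algebraMap K F (c ^ m) * (f * w₂ ^ m) := by
        rw [hw', mul_pow, map_pow]; ring
      have e2 : c ^ m = 1 := by
        have := congrArg (fun y => (θ y).leadingCoeff) e1
        rw [map_mul θ (algebraMap K F (c ^ m)), hθ, HahnSeries.leadingCoeff_mul, leadingCoeff_C, hl,
          hl', mul_one] at this
        exact this.symm
      rw [e1, e2, map_one, one_mul]
    · exfalso
      have hS : InS K x f m n (f * (w₁ - algebraMap K F c * w₂) ^ m) :=
        ⟨mul_ne_zero hf (pow_ne_zero _ hw), inB_combo hf hB hB' hw₁ hw₂ hc0 hw, _, hw, rfl⟩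
      have hle := hmax _ ⟨_, hS, rfl⟩
      rw [hoform _ hw] at hle
      have hC0 : (HahnSeries.C c : LaurentSeries K) ≠ 0 := by
        rw [← hθ]; exact hne _ (by simpa using hc0)
      have hgt : (θ w₁).order < (θ (w₁ - algebraMap K F c * w₂)).order := by
        rw [map_sub, map_mul, hθ]
        apply order_sub_gt
        · rw [HahnSeries.order_mul hC0 (hne w₂ hw₂), HahnSeries.order_C, zero_add, hoo]
        · rw [HahnSeries.leadingCoeff_mul, leadingCoeff_C, hc, div_mul_cancel₀ _ hl2]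
        · rw [← hθ, ← map_mul, ← map_sub]
          exact hne _ hw
      nlinarith
  -- normalisation
  obtain ⟨hg₁0, hg₁B, w₁, hw₁, hg₁w⟩ := hg₁
  have hlc : (θ g₁).leadingCoeff ≠ 0 := HahnSeries.leadingCoeff_ne_zero.mpr (hne g₁ hg₁0)
  obtain ⟨e, he⟩ := IsAlgClosed.exists_pow_nat_eq ((θ g₁).leadingCoeff)⁻¹ hm
  have he0 : e ≠ 0 := by
    rintro rfl
    rw [zero_pow hm.ne'] at he
    exact inv_ne_zero hlc he.symm
  have hem0 : e ^ m ≠ 0 := pow_ne_zero _ he0
  set g : F := algebraMap K F (e ^ m) * g₁ with hg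
  have hg0 : g ≠ 0 := mul_ne_zero (by simpa using hem0) hg₁0
  have hgw : g = f * (algebraMap K F e * w₁) ^ m := by
    rw [hg, hg₁w, mul_pow, map_pow]; ring
  have hew : algebraMap K F e * w₁ ≠ 0 := mul_ne_zero (by simpa using he0) hw₁
  have hgS : InS K x f m n g := by
    refine ⟨hg0, fun v => ?_, _, hew, hgw⟩
    rw [hg, ord_const_mul v hem0]
    exact hg₁B v
  have hCe : (HahnSeries.C (e ^ m) : LaurentSeries K) ≠ 0 := by
    rw [← hθ]; exact hne _ (by simpa using hem0)
  have hgo : (θ g).order = k₀ := by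
    rw [hg, map_mul, hθ, HahnSeries.order_mul hCe (hne g₁ hg₁0), HahnSeries.order_C, zero_add, hk₁]
  have hgl : (θ g).leadingCoeff = 1 := by
    rw [hg, map_mul, hθ, HahnSeries.leadingCoeff_mul, leadingCoeff_C, he, inv_mul_cancel₀ hlc]
  refine ⟨g, hg0, ⟨_, hew, hgw⟩, ?_⟩
  rintro s hsx hspl hso hsl ⟨w, hw, hsf⟩
  refine huniq (s g) g ⟨(map_ne_zero s).mpr hg0, fun v' => ?_, w * s (algebraMap K F e * w₁),
    mul_ne_zero hw ((map_ne_zero s).mpr hew), ?_⟩ hgS (by rw [hso, hgo]) hgo (hsl g hgl) hgl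
  · obtain ⟨v, hv⟩ := hspl v'
    have h1 := hv x
    rw [hsx] at h1
    rw [hv g, h1]
    exact hgS.2.1 v
  · rw [hgw, map_mul, map_pow, hsf, mul_pow]
    ring

theorem order_coeffMap {k k' : Type*} [Field k] [Field k'] (ι : k →+* k') (x : LaurentSeries k) :
    (ModularCurve.coeffMap ι x).order = x.order := by
  by_cases hx : x = 0
  · simp [hx]
  have hx' : ModularCurve.coeffMap ι x ≠ 0 := by
    rw [Ne, map_eq_zero]; exact hx
  apply le_antisymm
  · apply HahnSeries.order_le_of_coeff_ne_zero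
    rw [ModularCurve.coeffMap_coeff, Ne, map_eq_zero, ← HahnSeries.leadingCoeff_eq]
    exact HahnSeries.leadingCoeff_ne_zero.2 hx
  · apply HahnSeries.order_le_of_coeff_ne_zero
    have := HahnSeries.leadingCoeff_ne_zero.2 hx'
    rw [HahnSeries.leadingCoeff_eq, ModularCurve.coeffMap_coeff, Ne, map_eq_zero] at this
    exact this

theorem leadingCoeff_coeffMap {k k' : Type*} [Field k] [Field k'] (ι : k →+* k')
    (x : LaurentSeries k) : (ModularCurve.coeffMap ι x).leadingCoeff = ι x.leadingCoeff := by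
  rw [HahnSeries.leadingCoeff_eq, HahnSeries.leadingCoeff_eq, order_coeffMap,
    ModularCurve.coeffMap_coeff]

theorem order_jqModC (k : Type*) [Field k] : (ModularCurve.jqModC k).order = -1 := by
  have h0 : ModularCurve.jqModC k ≠ 0 := ModularCurve.jqModC_ne_zero_of_nontrivial k
  apply le_antisymm
  · exact HahnSeries.order_le_of_coeff_ne_zero
      (by rw [ModularCurve.coeff_jqModC_neg_one]; exact one_ne_zero)
  · by_contra hlt
    rw [not_le] at hlt
    exact HahnSeries.leadingCoeff_ne_zero.2 h0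
      (by rw [HahnSeries.leadingCoeff_eq]; exact ModularCurve.coeff_jqModC_of_lt k hlt)

theorem coe_jF (N : ℕ) [NeZero N] : ((C24.jF N : C24.FN N) : LaurentSeries Kc) =
    ModularCurve.jqModC Kc := by
  show C24.Jser 1 = _
  rw [C24.Jser, dif_neg one_ne_zero, ModularCurve.jqNModC_one]

end Canon

/-- the coefficientwise action of `Aut ℂ` on the function field over `ℂ`. -/
noncomputable abbrev arC (N : ℕ) (σ : Kc ≃ₐ[ℚ] Kc) : C24.FN N ≃+* C24.FN N :=
  ModularCurve.arithmeticRingAut (ModularCurve.modularFunctionFieldFull N) σ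

theorem exists_canonical (N : ℕ) [NeZero N] (m : ℕ) (hm : 0 < m) (f : C24.FN N) (hf : f ≠ 0) :
    ∃ g : C24.FN N, g ≠ 0 ∧ (∃ w : C24.FN N, w ≠ 0 ∧ g = f * w ^ m) ∧
      ∀ σ : Kc ≃ₐ[ℚ] Kc, (∃ w : C24.FN N, w ≠ 0 ∧ arC N σ f = f * w ^ m) → arC N σ g = g := by
  obtain ⟨g, hg0, hgw, hg⟩ := Canon.exists_canonical_abs (C24.isFF1_FN N) (C24.transcendental_jF N)
    ((mffC N).val : C24.FN N →+* LaurentSeries Kc)
    (fun a => ModularCurve.algebraMap_laurentSeries_eq_single Kc a)
    (by
      show ((C24.jF N : C24.FN N) : LaurentSeries Kc).order ≠ 0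
      rw [Canon.coe_jF, Canon.order_jqModC]
      decide) m hm f hf
  refine ⟨g, hg0, hgw, fun σ hσ => ?_⟩
  refine hg (arC N σ : C24.FN N →+* C24.FN N) ?_ ?_ ?_ ?_ hσ
  · apply Subtype.ext
    show ModularCurve.coeffMap (σ : Kc →+* Kc) ((C24.jF N : C24.FN N) : LaurentSeries Kc) = _
    rw [Canon.coe_jF, ModularCurve.coeffMap_jqModC]
  · intro v'
    refine ⟨(ModularCurve.arithmeticGalois (ModularCurve.modularFunctionFieldFull N) σ)⁻¹ • v',
      fun y => ?_⟩
    have := AlgebraicCurve.SemilinearAut.ord_smul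
      (ModularCurve.arithmeticGalois (ModularCurve.modularFunctionFieldFull N) σ)
      ((ModularCurve.arithmeticGalois (ModularCurve.modularFunctionFieldFull N) σ)⁻¹ • v') y
    rw [smul_inv_smul] at this
    exact this
  · intro y
    exact Canon.order_coeffMap _ _
  · intro y hy
    show (ModularCurve.coeffMap (σ : Kc →+* Kc) (y : LaurentSeries Kc)).leadingCoeff = 1
    rw [Canon.leadingCoeff_coeffMap]
    have hy' : (y : LaurentSeries Kc).leadingCoeff = 1 := hy
    rw [hy', map_one]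

end Fermat.Agent.NV
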