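import Fermat.Agent.NV.EisLim

set_option autoImplicit false

/-!
# NV task A3c-EisChar

Existence of a nonzero weakly holomorphic function with a given unitary character which is trivial on the
elements of small trace.

SKETCH.  `c = chrCoeff N χ`, `E = eisC c`, `h = E / Δ`.
* `chrCoeff` is well defined: two elements `γ, γ'` of `Γ₀(N)` with the same bottom row satisfy
  `γ' γ⁻¹ = [[1, k], [0, 1]]`, of trace `2`, so `χ γ = χ γ'`.  Hence `chrCoeff N χ (row 1 of γ) = (χ γ)⁻¹` and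
  `chrCoeff N χ (v ᵥ* δ) = (χ δ)⁻¹ * chrCoeff N χ v` for `δ ∈ Γ₀(N)`.
* `‖c v‖ ≤ 1`; `c (0, 1) = (χ 1)⁻¹ = 1`, `c (0, -1) = (χ (-1))⁻¹ = 1` (trace `-2`), `c (0, d) = 0` otherwise (determinant).
* `eisC_smul` : `E (γ z) = denom γ z ^ 12 * χ γ * E z`; `Δ (γ z) = denom γ z ^ 12 * Δ z`
  (see `hΔeq` in `Fermat/Agent/S24/Inv.lean`); so `h` is `χ`-equivariant; `h ≠ 0` by `eisC_ne_zero`.
* `act g h * Δ = eisC (fun v => c (v ᵥ* g))` (again `eisC_smul`) is holomorphic, bounded at `i∞` and `N`-periodic: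
  `g⁻¹ T^N g`-type elements lie in `Γ(N) ⊆ Γ₀(N)` and have trace `2`.  So `IsBd N (act g h * Δ ^ 1)`.
-/

open UpperHalfPlane ModularForm CongruenceSubgroup EisensteinSeries
open scoped MatrixGroups Manifold

namespace Fermat.Agent.NV

open Fermat.Agent.S24 Fermat.Agent.S16

open Classical in
/-- `(χ γ)⁻¹` if `v` is the bottom row of `γ ∈ Γ₀(N)`, and `0` if there is no such `γ`. -/
noncomputable def chrCoeff (N : ℕ) (χ : Chr N) (v : Fin 2 → ℤ) : ℂ :=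
  if h : ∃ γ : Gamma0 N, ((γ : SL(2, ℤ)) : Matrix (Fin 2) (Fin 2) ℤ) 1 = v then
    (((χ h.choose)⁻¹ : ℂˣ) : ℂ) else 0

namespace EisChar

/-- two elements with the same bottom row differ by a translation. -/
theorem chi_eq_of_row_eq {N : ℕ} {χ : Chr N} (hs : SmallTriv N χ) (γ γ' : Gamma0 N)
    (h : ((γ' : SL(2, ℤ)) : Matrix (Fin 2) (Fin 2) ℤ) 1 = ((γ : SL(2, ℤ)) : Matrix (Fin 2) (Fin 2) ℤ) 1) :
    χ γ' = χ γ := by
  have h0 : ((γ' : SL(2, ℤ)) : Matrix (Fin 2) (Fin 2) ℤ) 1 0 =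
      ((γ : SL(2, ℤ)) : Matrix (Fin 2) (Fin 2) ℤ) 1 0 := congrFun h 0
  have h1 : ((γ' : SL(2, ℤ)) : Matrix (Fin 2) (Fin 2) ℤ) 1 1 =
      ((γ : SL(2, ℤ)) : Matrix (Fin 2) (Fin 2) ℤ) 1 1 := congrFun h 1
  have hd := (γ : SL(2, ℤ)).det_coe
  have hd' := (γ' : SL(2, ℤ)).det_coe
  rw [Matrix.det_fin_two] at hd hd'
  have htr : SmallTrace (((γ' * γ⁻¹ : Gamma0 N)) : SL(2, ℤ)) := by
    unfold SmallTrace
    have : (((γ' * γ⁻¹ : Gamma0 N) : SL(2, ℤ)) : Matrix (Fin 2) (Fin 2) ℤ).trace = 2 := by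
      rw [Subgroup.coe_mul, Subgroup.coe_inv, Matrix.SpecialLinearGroup.coe_mul,
        Matrix.SpecialLinearGroup.coe_inv, Matrix.adjugate_fin_two, Matrix.trace_fin_two]
      simp only [Matrix.mul_apply, Fin.sum_univ_two, Matrix.cons_val_zero, Matrix.cons_val_one,
        Matrix.of_apply, Matrix.cons_val', Matrix.cons_val_fin_one]
      rw [h0, h1] at *
      linarith
    rw [this]; norm_num
  have := hs _ htr
  rw [map_mul, map_inv, mul_inv_eq_one] at this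
  exact this

theorem chrCoeff_row {N : ℕ} {χ : Chr N} (hs : SmallTriv N χ) (γ : Gamma0 N) :
    chrCoeff N χ (((γ : SL(2, ℤ)) : Matrix (Fin 2) (Fin 2) ℤ) 1) = (((χ γ)⁻¹ : ℂˣ) : ℂ) := by
  have h : ∃ γ' : Gamma0 N, ((γ' : SL(2, ℤ)) : Matrix (Fin 2) (Fin 2) ℤ) 1 =
      ((γ : SL(2, ℤ)) : Matrix (Fin 2) (Fin 2) ℤ) 1 := ⟨γ, rfl⟩
  unfold chrCoeff
  rw [dif_pos h, chi_eq_of_row_eq hs γ h.choose h.choose_spec]

theorem chrCoeff_of_not {N : ℕ} {χ : Chr N} {v : Fin 2 → ℤ}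
    (h : ¬ ∃ γ : Gamma0 N, ((γ : SL(2, ℤ)) : Matrix (Fin 2) (Fin 2) ℤ) 1 = v) :
    chrCoeff N χ v = 0 := dif_neg h

theorem row_mul (γ δ : SL(2, ℤ)) :
    ((γ * δ : SL(2, ℤ)) : Matrix (Fin 2) (Fin 2) ℤ) 1 =
      Matrix.vecMul ((γ : Matrix (Fin 2) (Fin 2) ℤ) 1) (δ : Matrix (Fin 2) (Fin 2) ℤ) := by
  rw [Matrix.SpecialLinearGroup.coe_mul]
  funext j
  simp [Matrix.mul_apply, Matrix.vecMul, dotProduct]

theorem chrCoeff_vecMul {N : ℕ} {χ : Chr N} (hs : SmallTriv N χ) (δ : Gamma0 N) (v : Fin 2 → ℤ) :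
    chrCoeff N χ (Matrix.vecMul v ((δ : SL(2, ℤ)) : Matrix (Fin 2) (Fin 2) ℤ)) =
      (((χ δ)⁻¹ : ℂˣ) : ℂ) * chrCoeff N χ v := by
  by_cases h : ∃ γ : Gamma0 N, ((γ : SL(2, ℤ)) : Matrix (Fin 2) (Fin 2) ℤ) 1 = v
  · obtain ⟨γ, rfl⟩ := h
    rw [← row_mul, ← Subgroup.coe_mul, chrCoeff_row hs, chrCoeff_row hs, map_mul, mul_inv_rev]
    push_cast
    ring
  · rw [chrCoeff_of_not h, mul_zero]
    apply chrCoeff_of_not
    rintro ⟨γ, hγ⟩
    apply h
    refine ⟨γ * δ⁻¹, ?_⟩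
    rw [Subgroup.coe_mul, row_mul, hγ, Matrix.vecMul_vecMul, Subgroup.coe_inv,
      ← Matrix.SpecialLinearGroup.coe_mul, mul_inv_cancel, Matrix.SpecialLinearGroup.coe_one,
      Matrix.vecMul_one]

theorem norm_chrCoeff_le {N : ℕ} {χ : Chr N} (hu : ∀ γ, ‖((χ γ : ℂˣ) : ℂ)‖ = 1)
    (v : Fin 2 → ℤ) : ‖chrCoeff N χ v‖ ≤ 1 := by
  unfold chrCoeff
  split_ifs with h
  · rw [← map_inv, hu]
  · simp

end EisChar

namespace EisChar

theorem eisC_const_mul (a : ℂ) (c : (Fin 2 → ℤ) → ℂ) (z : ℍ) :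
    eisC (fun v => a * c v) z = a * eisC c z := by
  unfold eisC
  rw [← tsum_mul_left]
  refine tsum_congr fun v => ?_
  ring

theorem disc_smul (g : SL(2, ℤ)) (z : ℍ) :
    discriminant (g • z) = denom g z ^ (12 : ℤ) * discriminant z := by
  have hg : (g : GL (Fin 2) ℝ) ∈ 𝒮ℒ := ⟨g, rfl⟩
  exact SlashInvariantForm.slash_action_eqn'' CuspForm.discriminant hg z

theorem conj_entries (N : ℕ) (g : SL(2, ℤ)) :
    ((g⁻¹ * (ModularGroup.T ^ (N : ℤ))⁻¹ * g : SL(2, ℤ)) : Matrix (Fin 2) (Fin 2) ℤ) 1 0 =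
        N * (g 1 0 * g 1 0) ∧
      ((g⁻¹ * (ModularGroup.T ^ (N : ℤ))⁻¹ * g : SL(2, ℤ)) : Matrix (Fin 2) (Fin 2) ℤ).trace = 2 := by
  have hd := g.det_coe
  rw [Matrix.det_fin_two] at hd
  have hT : ((ModularGroup.T ^ (N : ℤ))⁻¹ : SL(2, ℤ)) = ModularGroup.T ^ (-(N : ℤ)) := by
    rw [zpow_neg]
  rw [hT, Matrix.SpecialLinearGroup.coe_mul, Matrix.SpecialLinearGroup.coe_mul,
      Matrix.SpecialLinearGroup.coe_inv, Matrix.adjugate_fin_two, ModularGroup.coe_T_zpow]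
  constructor
  · simp [Matrix.mul_apply, Fin.sum_univ_two]
    ring
  · simp [Fin.sum_univ_two, Matrix.trace_fin_two, Matrix.vecMul, dotProduct]
    linear_combination 2 * hd

/-- invariance of the translated coefficient function under the translation by `N`. -/
theorem chrCoeff_conj {N : ℕ} {χ : Chr N} (hs : SmallTriv N χ) (g : SL(2, ℤ)) (v : Fin 2 → ℤ) :
    chrCoeff N χ (Matrix.vecMul (Matrix.vecMul v
      (((ModularGroup.T ^ (N : ℤ))⁻¹ : SL(2, ℤ)) : Matrix (Fin 2) (Fin 2) ℤ))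
        (g : Matrix (Fin 2) (Fin 2) ℤ)) =
      chrCoeff N χ (Matrix.vecMul v (g : Matrix (Fin 2) (Fin 2) ℤ)) := by
  obtain ⟨h10, htr⟩ := conj_entries N g
  have hmem : g⁻¹ * (ModularGroup.T ^ (N : ℤ))⁻¹ * g ∈ Gamma0 N := by
    rw [Gamma0_mem, h10]
    push_cast
    simp
  let δ : Gamma0 N := ⟨_, hmem⟩
  have hδ : χ δ = 1 := hs δ (by
    unfold SmallTrace
    rw [htr]; norm_num)
  have h1 := chrCoeff_vecMul hs δ (Matrix.vecMul v (g : Matrix (Fin 2) (Fin 2) ℤ))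
  rw [hδ, inv_one, Units.val_one, one_mul] at h1
  rw [← h1]
  congr 1
  rw [Matrix.vecMul_vecMul, Matrix.vecMul_vecMul]
  congr 1
  change _ = (g : Matrix (Fin 2) (Fin 2) ℤ) *
    ((g⁻¹ * (ModularGroup.T ^ (N : ℤ))⁻¹ * g : SL(2, ℤ)) : Matrix (Fin 2) (Fin 2) ℤ)
  rw [← Matrix.SpecialLinearGroup.coe_mul, ← Matrix.SpecialLinearGroup.coe_mul]
  congr 1
  rw [mul_assoc, mul_inv_cancel_left]

theorem denom_T_zpow (n : ℤ) (z : ℍ) : denom (ModularGroup.T ^ n : SL(2, ℤ)) z = 1 := by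
  have h : ((ModularGroup.T ^ n : SL(2, ℤ)) : Matrix (Fin 2) (Fin 2) ℤ) = !![1, n; 0, 1] :=
    ModularGroup.coe_T_zpow n
  have h10 : ((ModularGroup.T ^ n : SL(2, ℤ)) : Matrix (Fin 2) (Fin 2) ℤ) 1 0 = 0 := by
    rw [h]; rfl
  have h11 : ((ModularGroup.T ^ n : SL(2, ℤ)) : Matrix (Fin 2) (Fin 2) ℤ) 1 1 = 1 := by
    rw [h]; rfl
  rw [ModularGroup.denom_apply, h10, h11]
  simp

theorem periodic_of_T {N : ℕ} {f : ℍ → ℂ}
    (h : ∀ z : ℍ, f ((ModularGroup.T ^ (N : ℤ) : SL(2, ℤ)) • z) = f z) :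
    Function.Periodic (f ∘ ofComplex) ((N : ℝ) : ℂ) := by
  intro z
  by_cases hz : 0 < z.im
  · have hz' : 0 < (z + ((N : ℝ) : ℂ)).im := by simpa using hz
    simp only [Function.comp_apply]
    rw [ofComplex_apply_of_im_pos hz, ofComplex_apply_of_im_pos hz', ← h ⟨z, hz⟩]
    congr 1
    apply UpperHalfPlane.ext
    rw [ModularGroup.coe_T_zpow_smul_eq]
    simp
  · have hz1 : z.im ≤ 0 := not_lt.mp hz
    have hz' : (z + ((N : ℝ) : ℂ)).im ≤ 0 := by simpa using hz1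
    simp only [Function.comp_apply]
    rw [ofComplex_apply_of_im_nonpos hz1, ofComplex_apply_of_im_nonpos hz']

end EisChar

theorem exists_equivariant (N : ℕ) [NeZero N] (χ : Chr N) (hs : SmallTriv N χ)
    (hu : ∀ γ, ‖((χ γ : ℂˣ) : ℂ)‖ = 1) :
    ∃ h : ℍ → ℂ, h ∈ Wh N ∧ h ≠ 0 ∧ IsEqv N χ h := by
  set c := chrCoeff N χ with hc
  have hc1 : ∀ v, ‖c v‖ ≤ 1 := EisChar.norm_chrCoeff_le hu
  have hΔ : ∀ z : ℍ, discriminant z ≠ 0 := discriminant_ne_zero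
  refine ⟨fun z => eisC c z / discriminant z, ?_, ?_, ?_⟩
  · rw [mem_Wh]
    intro g
    refine ⟨1, ?_⟩
    have hc' : ∀ v, ‖c (Matrix.vecMul v (g : Matrix (Fin 2) (Fin 2) ℤ))‖ ≤ 1 := fun v => hc1 _
    have heq : act g (fun z => eisC c z / discriminant z) * discriminant ^ 1 =
        eisC (fun v => c (Matrix.vecMul v (g : Matrix (Fin 2) (Fin 2) ℤ))) := by
      funext z
      simp only [Pi.mul_apply, act_apply, pow_one]
      rw [eisC_smul hc1, EisChar.disc_smul, inv_inv]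
      have hd : denom (g⁻¹ : SL(2, ℤ)) z ^ (12 : ℤ) ≠ 0 := zpow_ne_zero _ (denom_ne_zero _ z)
      field_simp [hΔ z]
    rw [heq]
    refine ⟨EisChar.periodic_of_T fun z => ?_, eisC_mdiff hc', eisC_bdd hc'⟩
    rw [eisC_smul hc', EisChar.denom_T_zpow, one_zpow, one_mul]
    congr 1
    funext v
    exact EisChar.chrCoeff_conj hs g v
  · intro h0
    have hne : eisC c ≠ 0 := by
      apply eisC_ne_zero hc1
      · have := EisChar.chrCoeff_row hs (1 : Gamma0 N)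
        rw [map_one, inv_one, Units.val_one] at this
        rw [← this]
        congr 1
        funext i
        fin_cases i <;> simp
      · have hmem : (-1 : SL(2, ℤ)) ∈ Gamma0 N := by
          rw [Gamma0_mem]
          simp
        have := EisChar.chrCoeff_row hs (⟨-1, hmem⟩ : Gamma0 N)
        have hχ : χ ⟨-1, hmem⟩ = 1 := hs _ (by
          unfold SmallTrace
          simp)
        rw [hχ, inv_one, Units.val_one] at this
        rw [← this]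
        congr 1
        funext i
        fin_cases i <;> simp
      · intro d hd1 hd2
        apply EisChar.chrCoeff_of_not
        rintro ⟨γ, hγ⟩
        have h0 : ((γ : SL(2, ℤ)) : Matrix (Fin 2) (Fin 2) ℤ) 1 0 = 0 := by
          have := congrFun hγ 0
          simpa using this
        have h1 : ((γ : SL(2, ℤ)) : Matrix (Fin 2) (Fin 2) ℤ) 1 1 = d := by
          have := congrFun hγ 1
          simpa using this
        have hdet := (γ : SL(2, ℤ)).det_coe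
        rw [Matrix.det_fin_two, h0, h1, mul_zero, sub_zero] at hdet
        rcases Int.isUnit_iff.mp (IsUnit.of_mul_eq_one _ (by rw [mul_comm]; exact hdet)) with h | h
        · exact hd1 h
        · exact hd2 h
    apply hne
    funext z
    have := congrFun h0 z
    simp only [Pi.zero_apply, div_eq_zero_iff] at this
    exact this.resolve_right (hΔ z)
  · intro γ z
    simp only
    rw [eisC_smul hc1, EisChar.disc_smul]
    have h1 : (fun v => c (Matrix.vecMul v (((γ : SL(2, ℤ))⁻¹ : SL(2, ℤ)) :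
        Matrix (Fin 2) (Fin 2) ℤ))) = fun v => ((χ γ : ℂˣ) : ℂ) * c v := by
      funext v
      have := EisChar.chrCoeff_vecMul hs γ⁻¹ v
      rw [Subgroup.coe_inv, map_inv, inv_inv] at this
      exact this
    rw [h1, EisChar.eisC_const_mul]
    have hd : denom (γ : SL(2, ℤ)) z ^ (12 : ℤ) ≠ 0 := zpow_ne_zero _ (denom_ne_zero _ z)
    field_simp [hΔ z]

end Fermat.Agent.NV
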