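import Fermat.Agent.NV.EisGen

set_option autoImplicit false

/-!
# NV task A3b-EisLim

The series `eisC c` is not identically zero if `c (0, ±1) = 1` and `c (0, d) = 0` for `d ≠ ±1`.

SKETCH.  Along `z = i t`, `t → ∞`: every term with `v 0 ≠ 0` tends to `0`, the terms with `v 0 = 0` are
constant, and the sum is dominated (for `t ≥ 1`) by the summable majorant of
`EisensteinSeries.summand_bound_of_mem_verticalStrip` (strip `|re z| ≤ 1`, `im z ≥ 1`).
`tendsto_tsum_of_dominated_convergence` gives `eisC c (i t) → ∑' v, (if v 0 = 0 then c v * (v 1)⁻¹² else 0) = 2`.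
-/

open UpperHalfPlane ModularForm CongruenceSubgroup EisensteinSeries
open scoped MatrixGroups Manifold

namespace Fermat.Agent.NV

namespace EisLim

/-- the point `i (n + 1)`. -/
noncomputable def pt (n : ℕ) : ℍ := ⟨⟨0, (n : ℝ) + 1⟩, by positivity⟩

theorem pt_mem (n : ℕ) : pt n ∈ verticalStrip 1 1 := by
  refine ⟨?_, ?_⟩
  · show |(0 : ℝ)| ≤ 1
    simp
  · show (1 : ℝ) ≤ (n : ℝ) + 1
    have : (0 : ℝ) ≤ n := Nat.cast_nonneg n
    linarith

theorem norm_lin_ge (v : Fin 2 → ℤ) (hv : v 0 ≠ 0) (n : ℕ) :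
    (n : ℝ) + 1 ≤ ‖(v 0 : ℂ) * (pt n : ℂ) + (v 1 : ℂ)‖ := by
  have him : ((v 0 : ℂ) * (pt n : ℂ) + (v 1 : ℂ)).im = (v 0 : ℝ) * ((n : ℝ) + 1) := by
    have : (pt n : ℂ) = ⟨0, (n : ℝ) + 1⟩ := rfl
    simp [this]
  have h1 : |((v 0 : ℂ) * (pt n : ℂ) + (v 1 : ℂ)).im| ≤ ‖(v 0 : ℂ) * (pt n : ℂ) + (v 1 : ℂ)‖ :=
    Complex.abs_im_le_norm _
  rw [him, abs_mul] at h1
  have h2 : (1 : ℝ) ≤ |(v 0 : ℝ)| := by
    have : (1 : ℤ) ≤ |v 0| := Int.one_le_abs hv
    exact_mod_cast this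
  have h3 : (0 : ℝ) ≤ (n : ℝ) + 1 := by positivity
  rw [abs_of_nonneg h3] at h1
  nlinarith

theorem norm_summand_le (v : Fin 2 → ℤ) (hv : v 0 ≠ 0) (n : ℕ) :
    ‖eisSummand 12 v (pt n)‖ ≤ 1 / ((n : ℝ) + 1) := by
  have h := norm_lin_ge v hv n
  have hn : (1 : ℝ) ≤ (n : ℝ) + 1 := by
    have : (0 : ℝ) ≤ n := Nat.cast_nonneg n
    linarith
  set X := ‖(v 0 : ℂ) * (pt n : ℂ) + (v 1 : ℂ)‖ with hX
  have hX1 : 1 ≤ X := hn.trans h
  have hX0 : 0 < X := by linarith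
  simp only [eisSummand, norm_zpow]
  rw [← hX, zpow_neg, one_div]
  apply inv_anti₀ (by linarith)
  refine h.trans ?_
  have : X ^ (12 : ℤ) = X ^ (12 : ℕ) := by norm_cast
  rw [this]
  exact le_self_pow₀ hX1 (by norm_num)

theorem tendsto_term (c : ℂ) (hc : ‖c‖ ≤ 1) (v : Fin 2 → ℤ) (hv : v 0 ≠ 0) :
    Filter.Tendsto (fun n : ℕ => c * eisSummand 12 v (pt n)) Filter.atTop (nhds 0) := by
  apply squeeze_zero_norm (a := fun n : ℕ => 1 / ((n : ℝ) + 1))
  · intro n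
    rw [norm_mul]
    exact (mul_le_of_le_one_left (norm_nonneg _) hc).trans (norm_summand_le v hv n)
  · exact tendsto_one_div_add_atTop_nhds_zero_nat

/-- the limit terms. -/
noncomputable def lim (c : (Fin 2 → ℤ) → ℂ) (v : Fin 2 → ℤ) : ℂ :=
  if v 0 = 0 then c v * ((v 1 : ℂ)) ^ (-(12 : ℤ)) else 0

theorem tendsto_all {c : (Fin 2 → ℤ) → ℂ} (hc : ∀ v, ‖c v‖ ≤ 1) (v : Fin 2 → ℤ) :
    Filter.Tendsto (fun n : ℕ => c v * eisSummand 12 v (pt n)) Filter.atTop (nhds (lim c v)) := by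
  by_cases hv : v 0 = 0
  · have : (fun n : ℕ => c v * eisSummand 12 v (pt n)) = fun _ => lim c v := by
      funext n
      simp [lim, hv, eisSummand]
    rw [this]
    exact tendsto_const_nhds
  · rw [lim, if_neg hv]
    exact tendsto_term (c v) (hc v) v hv

theorem tsum_lim {c : (Fin 2 → ℤ) → ℂ}
    (h1 : c ![0, 1] = 1) (h2 : c ![0, -1] = 1)
    (h0 : ∀ d : ℤ, d ≠ 1 → d ≠ -1 → c ![0, d] = 0) : ∑' v, lim c v = 2 := by
  have hne : (![0, 1] : Fin 2 → ℤ) ≠ ![0, -1] := by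
    intro h
    have := congrFun h 1
    simp at this
  rw [tsum_eq_sum (s := {![0, 1], ![0, -1]})]
  · rw [Finset.sum_pair hne]
    simp only [lim, Matrix.cons_val_zero, if_true, Matrix.cons_val_one, Matrix.cons_val_fin_one,
      h1, h2]
    norm_num
  · intro v hv
    simp only [Finset.mem_insert, Finset.mem_singleton, not_or] at hv
    by_cases hv0 : v 0 = 0
    · have hv' : v = ![0, v 1] := by
        ext i
        fin_cases i
        · simpa using hv0
        · simp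
      have a1 : v 1 ≠ 1 := by
        intro h
        apply hv.1
        rw [hv', h]
      have a2 : v 1 ≠ -1 := by
        intro h
        apply hv.2
        rw [hv', h]
      have := h0 (v 1) a1 a2
      rw [← hv'] at this
      simp [lim, this]
    · simp [lim, hv0]

end EisLim

theorem eisC_ne_zero {c : (Fin 2 → ℤ) → ℂ} (hc : ∀ v, ‖c v‖ ≤ 1)
    (h1 : c ![0, 1] = 1) (h2 : c ![0, -1] = 1)
    (h0 : ∀ d : ℤ, d ≠ 1 → d ≠ -1 → c ![0, d] = 0) : eisC c ≠ 0 := by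
  intro hzero
  have hlim : Filter.Tendsto (fun n : ℕ => ∑' v, c v * eisSummand 12 v (EisLim.pt n)) Filter.atTop
      (nhds (∑' v, EisLim.lim c v)) := by
    refine tendsto_tsum_of_dominated_convergence
      (EisGen.summable_majorant (r ⟨⟨1, 1⟩, one_pos⟩ ^ (-(12 : ℝ)))) (EisLim.tendsto_all hc) ?_
    exact Filter.Eventually.of_forall fun n v => EisGen.term_bound hc v one_pos (EisLim.pt_mem n)
  have hz : (fun n : ℕ => ∑' v, c v * eisSummand 12 v (EisLim.pt n)) = fun _ => 0 := by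
    funext n
    exact congrFun hzero (EisLim.pt n)
  rw [hz, EisLim.tsum_lim h1 h2 h0] at hlim
  have := tendsto_nhds_unique hlim tendsto_const_nhds
  norm_num at this

end Fermat.Agent.NV
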