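import Fermat.Agent.NV.KappaLat
import Fermat.Agent.GES.System

set_option autoImplicit false

/-!
# NV + GES: the Kummer system of `X₀(N)` and its Tate property
-/

namespace Fermat.Agent.NV

open Fermat.Agent.S24 (Kb FN)

/-- the input of `GES.KappaData.toKummerSystem`. -/
noncomputable def kappaData (N p : ℕ) [NeZero N] [NeZero p] : GES.KappaData N p where
  H := S31.Lat N
  T := S31.latT N
  link := S31.lat_link N
  κ := fun n => kappa N (p ^ n)
  κ_ker := fun n h hk => kappa_ker N (p ^ n) h hk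
  κ_T := fun n ℓ hℓ hℓNp h =>
    kappa_latT N (p ^ n) ℓ hℓ (fun hd => hℓNp (Dvd.dvd.mul_right hd p)) h

theorem exists_isTate (N p : ℕ) [NeZero N] (hp : p.Prime) :
    ∃ 𝒦 : S31.KummerSystem N p, S30.IsTate 𝒦 := by
  haveI : NeZero p := ⟨hp.ne_zero⟩
  refine ⟨(kappaData N p).toKummerSystem, (kappaData N p).isTate ?_ ?_⟩
  · intro n σ h
    obtain ⟨h', hh'⟩ := kappa_surjective N (p ^ n) (GES.rhoV N (p ^ n) σ (kappa N (p ^ n) h))
    exact ⟨h', hh'.symm⟩
  · intro n h
    exact kappa_trans N (pow_dvd_pow p (Nat.le_succ n)) h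

theorem exists_kummerSystem (N p : ℕ) [NeZero N] (hp : p.Prime) :
    Nonempty (S31.KummerSystem N p) :=
  (exists_isTate N p hp).elim fun 𝒦 _ => ⟨𝒦⟩

end Fermat.Agent.NV
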