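import Fermat.Agent.NV.HeckeExp

set_option autoImplicit false

/-!
# NV task D4-Hecke

Hecke equivariance of the character.

SKETCH.  Data `(a, w₀, h)` of `HasChar N m f χ`: `thetaIncl a = f * w₀ ^ m`.  `TT = GES.heckeF N ℓ` is multiplicative: `TT (thetaIncl a) = TT f * (TT w₀) ^ m`, and `TT x ≠ 0` for `x ≠ 0` (monoid hom between fields: `TT x * TT x⁻¹ = TT 1 = 1`).
Write `TT (thetaIncl a) = thetaIncl u / thetaIncl w` (`thetaIncl_exists_div`), `a' = u * w ^ (m - 1)`; then `thetaIncl a' = TT f * (TT w₀ * thetaIncl w) ^ m`.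
Root: `h' = heckeProd N ℓ h * PhiB w`: `h' ^ m = heckeProd (h ^ m) * PhiB w ^ m = (heckeProd (PhiB a) * PhiB w) * PhiB w ^ (m-1) = PhiB u * PhiB w ^ (m-1) = PhiB a'` (`heckeProd_pow`, `heckeProd_PhiB`).
`h'` is holomorphic (`heckeProd_mdiff`) and `heckeChr χ`-equivariant (`heckeProd_isEqv`, `Ch.isEqv_PhiB`, `IsEqv.mul`).
-/

open UpperHalfPlane ModularForm CongruenceSubgroup
open scoped MatrixGroups Manifold

namespace Fermat.Agent.NV

open Fermat.Agent.S24 Fermat.Agent.S16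

theorem hasChar_heckeF (N ℓ : ℕ) [NeZero N] [NeZero ℓ] (hℓ : ℓ.Prime) (hℓN : ¬ ℓ ∣ N) {m : ℕ}
    (hm : 0 < m) {f : FN N} {χ : Chr N} (h : Ch.HasChar N m f χ) :
    Ch.HasChar N m (GES.heckeF N ℓ f) (heckeChr N hℓ χ) := by
  obtain ⟨a, w₀, y, ha, hw₀, hth, ⟨hy, hroot⟩, heqv⟩ := h
  set TT := GES.heckeF N ℓ with hTT
  have hTT0 : ∀ x : FN N, x ≠ 0 → TT x ≠ 0 := by
    intro x hx h0
    have h1 : TT x * TT x⁻¹ = 1 := by rw [← map_mul, mul_inv_cancel₀ hx, map_one]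
    rw [h0, zero_mul] at h1
    exact zero_ne_one h1
  have hth0 : thetaIncl N a ≠ 0 := fun h0 =>
    ha (thetaIncl_injective N (by rw [h0, map_zero]))
  obtain ⟨u, w, hw, huw⟩ := thetaIncl_exists_div N (TT (thetaIncl N a))
  have hw' : thetaIncl N w ≠ 0 := fun h0 =>
    hw (thetaIncl_injective N (by rw [h0, map_zero]))
  have huw' : TT (thetaIncl N a) * thetaIncl N w = thetaIncl N u := by
    rw [huw, div_mul_cancel₀ _ hw']
  have hu : u ≠ 0 := by
    rintro rfl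
    rw [map_zero] at huw'
    exact mul_ne_zero (hTT0 _ hth0) hw' huw'
  obtain ⟨k, rfl⟩ : ∃ k, m = k + 1 := ⟨m - 1, by omega⟩
  refine ⟨u * w ^ k, TT w₀ * thetaIncl N w, heckeProd N ℓ y * (PhiB N w : ℍ → ℂ),
    mul_ne_zero hu (pow_ne_zero k hw), mul_ne_zero (hTT0 _ hw₀) hw', ?_, ⟨?_, ?_⟩, ?_⟩
  · rw [map_mul, map_pow, ← huw', hth, map_mul, map_pow]
    ring
  · exact (heckeProd_mdiff N ℓ hy).mul (Ch.basic_mdiff N w)
  · intro z
    have h1 : heckeProd N ℓ y ^ (k + 1) = heckeProd N ℓ (PhiB N a : ℍ → ℂ) := by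
      rw [← heckeProd_pow]
      congr 1
      funext z
      exact hroot z
    have h2 := heckeProd_PhiB N ℓ hℓ hℓN a u w huw' z
    rw [Ch.basic_mul, Ch.basic_pow, Pi.mul_apply, Pi.mul_apply, Pi.pow_apply, ← h2, mul_pow,
      ← Pi.pow_apply, h1]
    ring
  · have := (heckeProd_isEqv N hℓ heqv).mul (Ch.isEqv_PhiB N w)
    have e : heckeChr N hℓ χ * 1 = heckeChr N hℓ χ := by
      ext γ
      simp
    rwa [e] at this

end Fermat.Agent.NV
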