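import Fermat.Agent.NV.HeckeProd
import Fermat.Agent.NV.Level
import Fermat.Agent.NV.Kb.Basic
import Fermat.Agent.GES.Star

set_option autoImplicit false
set_option linter.style.haveILetI false
set_option linter.unusedSectionVars false

/-!
# NV task D3-HeckeExp

The function on `ℍ` attached to `T_ℓ a = GES.heckeF N ℓ a` is `z ↦ ∏_x a (β_x z)`.

SKETCH.  `A = PhiB N a` is in `perSub N` and `T`-invariant (`act_PhiB`, `T ∈ Γ₀(N)`), so `A ∈ perSub 1` (`mem_perSub_one`), and `TInf 1 A = coeffMap iotaK a` =: `Â`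
(`TInf_level` with `d = 1`, `M = N`, `TInf_PhiB`, injectivity of `qExpand`).  Same for `U = PhiB u`, `W = PhiB w`.
By `heckeProd_eq_pre` and `TInf_pre` with `M = ℓ`: `heckeProd A ∈ perSub ℓ` and
`TInf ℓ (heckeProd A) = qExpand (ℓ * ℓ) Â * ∏_{j < ℓ} qExpand 1 (twist (rootU ℓ j) Â)`.
Apply `coeffMap iotaK` to `GES.star N ℓ hℓ hℓN ζ hζ (thetaIncl a)` (`ζ : Kbˣ` any primitive `ℓ`-th root of unity, exists since `Kb` is algebraically closed of characteristic `0`; choose it with `iotaK ζ = rootU ℓ 1`, possible by `rootU_mem_range`; `S28.coeffMap_twist`, `coeffMap_qExpand`; `S28.twist` and `S24.twist` have the same coefficients; `rootU ℓ j = rootU ℓ 1 ^ j`):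
`qExpand ℓ (coeffMap iotaK (heckeF a)) = TInf ℓ (heckeProd A)`.
Also `TInf ℓ U = qExpand ℓ (coeffMap iotaK u)` (`TInf_level`), same for `W`.  From `heckeF a * w = u` we get `TInf ℓ (heckeProd A * W) = TInf ℓ U`; conclude by `TInf_injective`.
-/

open UpperHalfPlane ModularForm CongruenceSubgroup
open scoped MatrixGroups Manifold

namespace Fermat.Agent.NV

open Fermat.Agent.S24 Fermat.Agent.S16

namespace HeckeExp

open ModularCurve

theorem qExpand_congr {k k' : ℕ} [NeZero k] [NeZero k'] (h : k = k') (x : LaurentSeries ℂ) :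
    qExpand ℂ k x = qExpand ℂ k' x := by
  subst h
  rfl

theorem twist_eq (u : ℂˣ) (x : LaurentSeries ℂ) : S28.twist u x = twist u x := by
  ext n
  rw [S28.twist_coeff, twist_coeff, Units.val_zpow_eq_zpow_val]

theorem rootU_eq_pow (δ : ℕ) (j : ℕ) : rootU δ (j : ℤ) = rootU δ 1 ^ j := by
  induction j with
  | zero => simp [rootU_zero]
  | succ j ih => rw [Nat.cast_succ, rootU_add, ih, pow_succ]

theorem T_mem_Gamma0 (N : ℕ) : ModularGroup.T ∈ Gamma0 N := by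
  rw [Gamma0_mem]
  simp [ModularGroup.T]

variable (N : ℕ) [NeZero N]

theorem PhiB_mem_perSub_one (a : A0 N) : (PhiB N a : ℍ → ℂ) ∈ perSub 1 := by
  apply mem_perSub_one (Btil_le_perSub N (PhiB N a).2)
  have h := act_PhiB N ModularGroup.T (T_mem_Gamma0 N) a
  exact congrArg Subtype.val h

theorem TInf_one_PhiB (a : A0 N) :
    TInf 1 ⟨(PhiB N a : ℍ → ℂ), PhiB_mem_perSub_one N a⟩ =
      coeffMap iotaK (a : LaurentSeries Kb) := by
  haveI : NeZero (N / 1) := ⟨by rw [Nat.div_one]; exact NeZero.ne N⟩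
  have h1 := TInf_level (one_dvd N) ⟨(PhiB N a : ℍ → ℂ), PhiB_mem_perSub_one N a⟩
  have h2 := TInf_PhiB N a
  rw [qExpand_congr (Nat.div_one N)] at h1
  exact qExpand_injective N (h1.symm.trans h2)

theorem TInf_PhiB_level (ℓ : ℕ) [NeZero ℓ] (a : A0 N) :
    TInf ℓ ⟨(PhiB N a : ℍ → ℂ), perSub_le_of_dvd (one_dvd ℓ) (PhiB_mem_perSub_one N a)⟩ =
      qExpand ℂ ℓ (coeffMap iotaK (a : LaurentSeries Kb)) := by
  haveI : NeZero (ℓ / 1) := ⟨by rw [Nat.div_one]; exact NeZero.ne ℓ⟩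
  have h1 := TInf_level (one_dvd ℓ) ⟨(PhiB N a : ℍ → ℂ), PhiB_mem_perSub_one N a⟩
  rw [qExpand_congr (Nat.div_one ℓ), TInf_one_PhiB] at h1
  exact h1

theorem heckeProd_mem {ℓ : ℕ} [NeZero ℓ] (hℓ : ℓ.Prime) (hℓN : ¬ ℓ ∣ N) (a : A0 N) :
    heckeProd N ℓ (PhiB N a : ℍ → ℂ) ∈ perSub ℓ := by
  rw [heckeProd_eq_pre N hℓ hℓN]
  exact (perSub ℓ).mul_mem (pre_mem_perSub (PhiB_mem_perSub_one N a) hℓ.pos one_pos (one_dvd ℓ))
    ((perSub ℓ).prod_mem fun j _ =>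
      pre_mem_perSub (PhiB_mem_perSub_one N a) one_pos hℓ.pos dvd_rfl)

theorem TInf_heckeProd {ℓ : ℕ} [NeZero ℓ] (hℓ : ℓ.Prime) (hℓN : ¬ ℓ ∣ N) (a : A0 N) :
    TInf ℓ ⟨heckeProd N ℓ (PhiB N a : ℍ → ℂ), heckeProd_mem N hℓ hℓN a⟩ =
      qExpand ℂ ℓ (qExpand ℂ ℓ (coeffMap iotaK (a : LaurentSeries Kb))) *
        ∏ j : Fin ℓ, twist (rootU ℓ ((j : ℕ) : ℤ)) (coeffMap iotaK (a : LaurentSeries Kb)) := by
  have h1 := PhiB_mem_perSub_one N a
  have e : (⟨heckeProd N ℓ (PhiB N a : ℍ → ℂ), heckeProd_mem N hℓ hℓN a⟩ : perSub ℓ) =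
      ⟨pre ℓ 0 1 (PhiB N a : ℍ → ℂ), pre_mem_perSub h1 hℓ.pos one_pos (one_dvd ℓ)⟩ *
        ∏ j : Fin ℓ, ⟨pre 1 (j : ℕ) ℓ (PhiB N a : ℍ → ℂ),
          pre_mem_perSub h1 one_pos hℓ.pos dvd_rfl⟩ := by
    apply Subtype.ext
    rw [Subring.coe_mul, SubmonoidClass.coe_finsetProd]
    exact heckeProd_eq_pre N hℓ hℓN _
  haveI i1 : NeZero (ℓ * (ℓ / 1)) := ⟨by rw [Nat.div_one]; exact mul_ne_zero hℓ.ne_zero hℓ.ne_zero⟩
  haveI i2 : NeZero (1 * (ℓ / ℓ)) := ⟨by rw [Nat.div_self hℓ.pos]; simp⟩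
  rw [e, map_mul, map_prod, TInf_pre h1 hℓ.pos one_pos (one_dvd ℓ), TInf_one_PhiB]
  congr 1
  · have h2 : rootU 1 ((0 : ℕ) : ℤ) = 1 := by rw [Nat.cast_zero, rootU_zero]
    rw [h2, twist_one, qExpand_congr (show ℓ * (ℓ / 1) = ℓ * ℓ by rw [Nat.div_one]),
      GES.qExpand_mul']
  · refine Finset.prod_congr rfl fun j _ => ?_
    rw [TInf_pre h1 one_pos hℓ.pos dvd_rfl, TInf_one_PhiB,
      qExpand_congr (show 1 * (ℓ / ℓ) = 1 by rw [Nat.div_self hℓ.pos]), qExpand_one_apply]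

/-- a primitive `ℓ`-th root of unity of `ℚ̄` mapping to `exp (2 π i / ℓ)`. -/
theorem exists_zeta (ℓ : ℕ) [NeZero ℓ] :
    ∃ ζ : Kbˣ, IsPrimitiveRoot ζ ℓ ∧ Units.map (iotaK : Kb →* ℂ) ζ = rootU ℓ 1 := by
  obtain ⟨x, hx⟩ := rootU_mem_range ℓ 1
  have hx0 : x ≠ 0 := by
    rintro rfl
    rw [map_zero] at hx
    exact (rootU ℓ 1).ne_zero hx.symm
  have hmap : Units.map (iotaK : Kb →* ℂ) (Units.mk0 x hx0) = rootU ℓ 1 := Units.ext hx
  refine ⟨Units.mk0 x hx0, ?_, hmap⟩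
  have h1 : IsPrimitiveRoot ((rootU ℓ 1 : ℂˣ) : ℂ) ℓ := by
    have h := Complex.isPrimitiveRoot_exp ℓ (NeZero.ne ℓ)
    have e : ((rootU ℓ 1 : ℂˣ) : ℂ) = Complex.exp (2 * Real.pi * Complex.I / ℓ) := by
      show Complex.exp (2 * Real.pi * Complex.I * ((1 : ℤ) : ℂ) / ℓ) = _
      congr 1
      push_cast
      ring
    rw [e]
    exact h
  have h2 : IsPrimitiveRoot (rootU ℓ 1) ℓ := IsPrimitiveRoot.coe_units_iff.mp h1
  rw [← hmap] at h2
  exact IsPrimitiveRoot.of_map_of_injective (hf := Units.map_injective iotaK.injective) h2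

/-- the expansion of `heckeProd` is the expansion of `heckeF`. -/
theorem TInf_heckeProd_eq {ℓ : ℕ} [NeZero ℓ] (hℓ : ℓ.Prime) (hℓN : ¬ ℓ ∣ N) (a : A0 N) :
    TInf ℓ ⟨heckeProd N ℓ (PhiB N a : ℍ → ℂ), heckeProd_mem N hℓ hℓN a⟩ =
      qExpand ℂ ℓ (coeffMap iotaK (GES.heckeF N ℓ (thetaIncl N a) : LaurentSeries Kb)) := by
  obtain ⟨ζ, hζ, hmap⟩ := exists_zeta ℓ
  have h1 := congrArg (coeffMap iotaK) (GES.star N ℓ hℓ hℓN ζ hζ (thetaIncl N a))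
  rw [coeffMap_qExpand, map_mul, map_prod, coeffMap_qExpand, coeffMap_qExpand] at h1
  rw [h1, TInf_heckeProd N hℓ hℓN]
  congr 1
  refine Finset.prod_congr rfl fun j _ => ?_
  rw [S28.coeffMap_twist, map_pow, hmap, twist_eq, rootU_eq_pow]
  rfl

end HeckeExp

theorem heckeProd_PhiB (N ℓ : ℕ) [NeZero N] [NeZero ℓ] (hℓ : ℓ.Prime) (hℓN : ¬ ℓ ∣ N)
    (a u w : A0 N) (h : GES.heckeF N ℓ (thetaIncl N a) * thetaIncl N w = thetaIncl N u) (z : ℍ) :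
    heckeProd N ℓ (PhiB N a : ℍ → ℂ) z * (PhiB N w : ℍ → ℂ) z = (PhiB N u : ℍ → ℂ) z := by
  have h1 : (GES.heckeF N ℓ (thetaIncl N a) : LaurentSeries Kb) * (w : LaurentSeries Kb) =
      (u : LaurentSeries Kb) := congrArg (fun t : FN N => (t : LaurentSeries Kb)) h
  have h2 := congrArg (fun t => ModularCurve.qExpand ℂ ℓ (ModularCurve.coeffMap iotaK t)) h1
  simp only [map_mul] at h2
  rw [← HeckeExp.TInf_heckeProd_eq N hℓ hℓN a, ← HeckeExp.TInf_PhiB_level N ℓ w,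
    ← HeckeExp.TInf_PhiB_level N ℓ u, ← map_mul] at h2
  have h3 := TInf_injective ℓ h2
  exact congrFun (congrArg Subtype.val h3) z

end Fermat.Agent.NV
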