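import Fermat.Agent.NV.Defs

set_option autoImplicit false

/-!
# NV: the Hecke operator on characters of `Γ₀(N)`
-/

open UpperHalfPlane ModularForm CongruenceSubgroup Matrix.SpecialLinearGroup
open scoped MatrixGroups Manifold

namespace Fermat.Agent.NV

open Fermat.Agent.S24 Fermat.Agent.S16

/-- the cocycle relation (same proof as `Fermat.Agent.S31.hecke_cocycle`). -/
theorem hκ_cocycle (N : ℕ) {ℓ : ℕ} (hℓ : ℓ.Prime) (γ δ : Gamma0 N) (x : HIdx N ℓ) :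
    hσ N hℓ (γ * δ) x = hσ N hℓ δ (hσ N hℓ γ x) ∧
      hκ N hℓ (γ * δ) x = hκ N hℓ γ x * hκ N hℓ δ (hσ N hℓ γ x) := by
  have h1 := hRep_mul N hℓ (γ * δ) x
  have h2 := hRep_mul N hℓ γ x
  have h3 := hRep_mul N hℓ δ (hσ N hℓ γ x)
  have h4 : hRep ℓ x.1 * mapGL ℝ ((γ * δ : Gamma0 N) : SL(2, ℤ)) =
      mapGL ℝ (hκ N hℓ γ x : SL(2, ℤ)) * mapGL ℝ (hκ N hℓ δ (hσ N hℓ γ x) : SL(2, ℤ)) *
        hRep ℓ (hσ N hℓ δ (hσ N hℓ γ x)).1 := by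
    rw [Subgroup.coe_mul, map_mul, ← mul_assoc, h2, mul_assoc, h3, mul_assoc]
  rw [h1] at h4
  have h5 : hRep ℓ (hσ N hℓ (γ * δ) x).1 =
      mapGL ℝ ((hκ N hℓ (γ * δ) x : SL(2, ℤ))⁻¹ * ((hκ N hℓ γ x : SL(2, ℤ)) *
        (hκ N hℓ δ (hσ N hℓ γ x) : SL(2, ℤ)))) * hRep ℓ (hσ N hℓ δ (hσ N hℓ γ x)).1 := by
    rw [map_mul, map_mul, map_inv, mul_assoc, ← h4, inv_mul_cancel_left]
  obtain ⟨e1, e2⟩ := hRep_index_unique N hℓ _ _ _ h5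
  refine ⟨e1, ?_⟩
  apply Subtype.ext
  rw [Subgroup.coe_mul]
  exact (inv_mul_eq_one.mp e2)

/-- the Hecke operator on characters: `(T_ℓ χ) γ = ∏_x χ (κ_x γ)`. -/
noncomputable def heckeChr (N : ℕ) {ℓ : ℕ} (hℓ : ℓ.Prime) (χ : Chr N) : Chr N :=
  MonoidHom.mk' (fun γ => ∏ x : HIdx N ℓ, χ (hκ N hℓ γ x)) (by
    intro γ δ
    have : ∀ x, χ (hκ N hℓ (γ * δ) x) = χ (hκ N hℓ γ x) * χ (hκ N hℓ δ (hσ N hℓ γ x)) := by
      intro x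
      rw [(hκ_cocycle N hℓ γ δ x).2, map_mul]
    simp only [this, Finset.prod_mul_distrib]
    congr 1
    exact Equiv.prod_comp (hσ N hℓ γ) (fun y => χ (hκ N hℓ δ y)))

theorem heckeChr_apply (N : ℕ) {ℓ : ℕ} (hℓ : ℓ.Prime) (χ : Chr N) (γ : Gamma0 N) :
    heckeChr N hℓ χ γ = ∏ x : HIdx N ℓ, χ (hκ N hℓ γ x) := rfl

theorem rootU_sum (δ : ℕ) {ι : Type*} (s : Finset ι) (b : ι → ℤ) :
    rootU δ (∑ i ∈ s, b i) = ∏ i ∈ s, rootU δ (b i) := by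
  classical
  induction s using Finset.induction_on with
  | empty => simp [rootU_zero]
  | insert a s ha ih => rw [Finset.sum_insert ha, Finset.prod_insert ha, rootU_add, ih]

theorem heckeChr_expChr (N m : ℕ) {ℓ : ℕ} (hℓ : ℓ.Prime) (ψ ψ' : Additive (Gamma0 N) →+ ℤ)
    (h : ∀ γ : Gamma0 N,
      ψ' (Additive.ofMul γ) = heckeFun N hℓ (fun δ => ψ (Additive.ofMul δ)) γ) :
    heckeChr N hℓ (expChr N m ψ) = expChr N m ψ' := by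
  ext γ
  rw [heckeChr_apply, expChr_apply, h, heckeFun, rootU_sum]
  rfl

end Fermat.Agent.NV
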