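import Fermat.Agent.NV.HeckeHom
import Fermat.Agent.S16.PeriodHecke

set_option autoImplicit false

/-!
# NV task D2-HeckeProd

The function `heckeProd N ℓ h : z ↦ ∏_x h (β_x z)`.

SKETCH.  * holomorphy: `Fermat.Agent.S16.ph_mdiff_comp`, `ph_det_hRep_pos` (`S16/PeriodHecke.lean`) for each factor; finite products of holomorphic functions (induction, `MDifferentiable.mul`; compare `ph_mdiff_sum`).
* equivariance: `hRep_mul` : `β_x γ = κ_x(γ) β_{σ x}` in `GL(2,ℝ)`, so `h (β_x (γ z)) = h (κ_x (β_{σ x} z)) = χ (κ_x) h (β_{σ x} z)` (`mul_smul`; the action of `SL(2,ℤ)` on `ℍ` is through `mapGL ℝ`); reindex the product by `σ = hσ N hℓ γ`.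
* `heckeProd_eq_pre`: for `ℓ ∤ N`, `HIdx N ℓ ≃ Option (Fin ℓ)`; `hRep ℓ none = heckeDiagMatrix ℓ = diag(ℓ, 1)`, `hRep ℓ (some j) = heckeMatrix ℓ j = [[1, j], [0, ℓ]]`; compute `β • z` (coe to `ℂ`; see `ph_tendsto_hRep` for such computations), `pre a b δ f z = f (ofComplex ((a z + b) / δ))`.
-/

open UpperHalfPlane ModularForm CongruenceSubgroup
open scoped MatrixGroups Manifold

namespace Fermat.Agent.NV

open Fermat.Agent.S24 Fermat.Agent.S16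

theorem heckeProd_mdiff_aux {ι : Type*} (s : Finset ι) (F : ι → ℍ → ℂ) (hF : ∀ i, MDiff (F i)) :
    MDiff (fun z => ∏ i ∈ s, F i z) := by
  classical
  induction s using Finset.induction_on with
  | empty =>
    simp only [Finset.prod_empty]
    exact mdifferentiable_const
  | insert a s ha ih =>
    have h2 : (fun z => ∏ i ∈ insert a s, F i z) = F a * fun z => ∏ i ∈ s, F i z := by
      funext z
      rw [Finset.prod_insert ha]
      rfl
    rw [h2]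
    exact (hF a).mul ih

theorem heckeProd_mdiff (N ℓ : ℕ) {y : ℍ → ℂ} (hy : MDiff y) : MDiff (heckeProd N ℓ y) :=
  heckeProd_mdiff_aux Finset.univ (fun (x : HIdx N ℓ) z => y (hRep ℓ x.1 • z))
    fun x => ph_mdiff_comp hy (ph_det_hRep_pos ℓ x.1)

theorem heckeProd_mul (N ℓ : ℕ) (y y' : ℍ → ℂ) :
    heckeProd N ℓ (y * y') = heckeProd N ℓ y * heckeProd N ℓ y' := by
  funext z
  simp only [heckeProd, Pi.mul_apply, Finset.prod_mul_distrib]

theorem heckeProd_pow (N ℓ : ℕ) (y : ℍ → ℂ) (k : ℕ) :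
    heckeProd N ℓ (y ^ k) = heckeProd N ℓ y ^ k := by
  funext z
  simp only [heckeProd, Pi.pow_apply, Finset.prod_pow]

theorem heckeProd_isEqv (N : ℕ) {ℓ : ℕ} (hℓ : ℓ.Prime) {χ : Chr N} {h : ℍ → ℂ}
    (he : IsEqv N χ h) : IsEqv N (heckeChr N hℓ χ) (heckeProd N ℓ h) := by
  intro γ z
  have h1 : ∀ x : HIdx N ℓ, h (hRep ℓ x.1 • ((γ : SL(2, ℤ)) • z)) =
      ((χ (hκ N hℓ γ x) : ℂˣ) : ℂ) * h (hRep ℓ (hσ N hℓ γ x).1 • z) := by
    intro x
    have e1 : hRep ℓ x.1 • ((γ : SL(2, ℤ)) • z) =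
        (hκ N hℓ γ x : SL(2, ℤ)) • (hRep ℓ (hσ N hℓ γ x).1 • z) := by
      change hRep ℓ x.1 • (Matrix.SpecialLinearGroup.mapGL ℝ (γ : SL(2, ℤ)) • z) =
        Matrix.SpecialLinearGroup.mapGL ℝ (hκ N hℓ γ x : SL(2, ℤ)) • (hRep ℓ (hσ N hℓ γ x).1 • z)
      rw [← mul_smul, ← mul_smul, hRep_mul]
    rw [e1, he]
  simp only [heckeProd]
  rw [Finset.prod_congr rfl fun x _ => h1 x, Finset.prod_mul_distrib, heckeChr_apply,
    Units.coe_prod]
  congr 1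
  exact Equiv.prod_comp (hσ N hℓ γ) (fun x => h (hRep ℓ x.1 • z))

theorem heckeProd_eq_pre (N : ℕ) {ℓ : ℕ} (hℓ : ℓ.Prime) (hℓN : ¬ ℓ ∣ N) (y : ℍ → ℂ) :
    heckeProd N ℓ y = pre ℓ 0 1 y * ∏ j : Fin ℓ, pre 1 (j : ℕ) ℓ y := by
  funext z
  have h1 : heckeProd N ℓ y z = ∏ x : Option (Fin ℓ), y (hRep ℓ x • z) :=
    Fintype.prod_equiv (Equiv.subtypeUnivEquiv fun _ _ => hℓN) _ _ fun x => rfl
  rw [h1, Fintype.prod_option, Pi.mul_apply, Finset.prod_apply]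
  congr 1
  · rw [pre]
    congr 1
    have : (((ℓ : ℕ) : ℂ) * z + ((0 : ℕ) : ℂ)) / ((1 : ℕ) : ℂ) = ((heckeDiagMatrix ℓ • z : ℍ) : ℂ) := by
      rw [coe_heckeDiagMatrix_smul hℓ.ne_zero]
      simp
    rw [this, ofComplex_apply]
    rfl
  · refine Finset.prod_congr rfl fun j _ => ?_
    rw [pre]
    congr 1
    have : (((1 : ℕ) : ℂ) * z + (((j : ℕ) : ℕ) : ℂ)) / ((ℓ : ℕ) : ℂ) =
        ((heckeMatrix ℓ j • z : ℍ) : ℂ) := by
      rw [coe_heckeMatrix_smul hℓ.ne_zero]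
      simp
    rw [this, ofComplex_apply]
    rfl

end Fermat.Agent.NV
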