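import Fermat.Agent.NV.Defs

set_option autoImplicit false

/-!
# NV task G1-SmallClass

Elements of `SL(2,ℤ)` of trace `0, ±1` have a fixed point in `ℍ`; elements of trace `±2` are `±` a conjugate of a power of `T`.

SKETCH.  `γ = [[a, b], [c, d]]`, `t = a + d`.
* `t² < 4`: then `c ≠ 0` (otherwise `a d = 1`, `t = ±2`); `τ = ((a - d) + i √(4 - t²)) / (2 c)` if `c > 0`, and the conjugate root if `c < 0`
  (or replace `γ` by `-γ`, which acts in the same way); check `c τ² + (d - a) τ - b = 0`, i.e. `(a τ + b) = τ (c τ + d)`; use `UpperHalfPlane.ext` and `specialLinearGroup_apply` / `expandB_coe_smul` (`S24/ExpandB.lean`).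
* `t = 2 ε`, `ε = ±1`: `M = γ - ε` satisfies `M² = 0` (Cayley-Hamilton, see `lift_cayley` in `S16/Lift.lean`).  Choose a primitive integer vector `(p, r)` with `M (p, r) = 0`
  (if `M = 0` take `(1, 0)`; otherwise divide a nonzero column of the adjugate by its gcd), complete it to `g₀ = [[p, *], [r, *]] ∈ SL(2,ℤ)` (Bezout: `Int.gcd_eq_gcd_ab` / `IsCoprime`);
  then `g₀⁻¹ γ g₀` fixes `(1, 0)` up to `ε`, so it is `ε [[1, j], [0, 1]] = ε T ^ j` (`ModularGroup.coe_T_zpow`).  Take `g = g₀⁻¹`.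
-/

open UpperHalfPlane ModularForm CongruenceSubgroup
open scoped MatrixGroups Manifold

namespace Fermat.Agent.NV

open Fermat.Agent.S24 Fermat.Agent.S16

/-- upper triangular elements of `SL(2,ℤ)`. -/
theorem smallClass_upper (δ : SL(2, ℤ)) (h : δ 1 0 = 0) :
    ∃ j : ℤ, δ = ModularGroup.T ^ j ∨ δ = -(ModularGroup.T ^ j) := by
  have hdet := Matrix.SpecialLinearGroup.det_coe δ
  rw [Matrix.det_fin_two, h, mul_zero, sub_zero] at hdet
  rcases Int.eq_one_or_neg_one_of_mul_eq_one' hdet with ⟨h0, h1⟩ | ⟨h0, h1⟩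
  · refine ⟨δ 0 1, Or.inl ?_⟩
    ext i j
    rw [ModularGroup.coe_T_zpow]
    fin_cases i <;> fin_cases j <;> simp [h, h0, h1]
  · refine ⟨-δ 0 1, Or.inr ?_⟩
    ext i j
    rw [Matrix.SpecialLinearGroup.coe_neg, ModularGroup.coe_T_zpow]
    fin_cases i <;> fin_cases j <;> simp [h, h0, h1]

/-- an element fixing a primitive vector up to sign is conjugate to an upper triangular one. -/
theorem smallClass_conj (γ : SL(2, ℤ)) (p r : ℤ) (hpr : IsCoprime p r)
    (h : γ 1 0 * p ^ 2 + (γ 1 1 - γ 0 0) * p * r - γ 0 1 * r ^ 2 = 0) :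
    ∃ (g : SL(2, ℤ)) (j : ℤ), γ = g⁻¹ * ModularGroup.T ^ j * g ∨
      γ = -(g⁻¹ * ModularGroup.T ^ j * g) := by
  obtain ⟨u, v, huv⟩ := hpr
  let g₀ : SL(2, ℤ) := ⟨!![p, -v; r, u], by rw [Matrix.det_fin_two_of]; linarith⟩
  have h10 : (g₀⁻¹ * γ * g₀) 1 0 = 0 := by
    rw [Matrix.SpecialLinearGroup.coe_mul, Matrix.SpecialLinearGroup.coe_mul,
      Matrix.SpecialLinearGroup.coe_inv, Matrix.adjugate_fin_two]
    simp only [g₀, Matrix.mul_apply, Fin.sum_univ_two, Matrix.of_apply, Matrix.cons_val_zero,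
      Matrix.cons_val_one, Matrix.cons_val', Matrix.cons_val_fin_one]
    linear_combination h
  obtain ⟨j, hj | hj⟩ := smallClass_upper _ h10
  · refine ⟨g₀⁻¹, j, Or.inl ?_⟩
    rw [← hj]
    group
  · refine ⟨g₀⁻¹, j, Or.inr ?_⟩
    rw [← neg_mul, ← mul_neg, ← hj]
    group

theorem smallTrace_cases (γ : SL(2, ℤ)) (h : SmallTrace γ) :
    (∃ τ : ℍ, γ • τ = τ) ∨
    (∃ (g : SL(2, ℤ)) (j : ℤ), γ = g⁻¹ * ModularGroup.T ^ j * g ∨
      γ = -(g⁻¹ * ModularGroup.T ^ j * g)) := by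
  have hdet := Matrix.SpecialLinearGroup.det_coe γ
  rw [Matrix.det_fin_two] at hdet
  unfold SmallTrace at h
  rw [Matrix.trace_fin_two] at h
  set a := γ 0 0 with ha
  set b := γ 0 1 with hb
  set c := γ 1 0 with hc
  set d := γ 1 1 with hd
  by_cases hc0 : c = 0
  · right
    refine smallClass_conj γ 1 0 isCoprime_one_left ?_
    rw [← hc, hc0]
    ring
  rcases h.lt_or_eq with hlt | heq
  · left
    have hcR : (c : ℝ) ≠ 0 := by exact_mod_cast hc0
    have hltR : ((a : ℝ) + d) ^ 2 < 4 := by exact_mod_cast hlt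
    have hdetR : (a : ℝ) * d - b * c = 1 := by exact_mod_cast hdet
    set s : ℝ := Real.sqrt (4 - ((a : ℝ) + d) ^ 2) with hs
    have hs0 : 0 < s := Real.sqrt_pos.2 (by linarith)
    have hs2 : s ^ 2 = 4 - ((a : ℝ) + d) ^ 2 := Real.sq_sqrt (by linarith)
    set x : ℝ := ((a : ℝ) - d) / (2 * c) with hx
    set y : ℝ := s / (2 * |(c : ℝ)|) with hy
    have hy0 : 0 < y := div_pos hs0 (by positivity)
    have hx' : 2 * (c : ℝ) * x = a - d := by
      rw [hx]
      field_simp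
    have hy' : 4 * (c : ℝ) ^ 2 * y ^ 2 = 4 - ((a : ℝ) + d) ^ 2 := by
      rw [hy, div_pow, mul_pow, sq_abs, hs2]
      field_simp
      ring
    refine ⟨⟨⟨x, y⟩, hy0⟩, ?_⟩
    apply UpperHalfPlane.ext
    rw [expandB_coe_smul, div_eq_iff (expandB_denom_ne γ _)]
    rw [← ha, ← hb, ← hc, ← hd]
    apply Complex.ext
    · simp only [Complex.add_re, Complex.mul_re, Complex.intCast_re, Complex.intCast_im,
        Complex.add_im, Complex.mul_im, zero_mul, sub_zero, add_zero]
      apply mul_left_cancel₀ (mul_ne_zero (four_ne_zero) hcR)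
      linear_combination (-(2 * (c : ℝ) * x - (a - d))) * hx' + hy' - 4 * hdetR
    · simp only [Complex.add_re, Complex.mul_re, Complex.intCast_re, Complex.intCast_im,
        Complex.add_im, Complex.mul_im, zero_mul, sub_zero, add_zero]
      linear_combination (-y) * hx'
  · right
    obtain ⟨ε, hε, htr⟩ : ∃ ε : ℤ, ε ^ 2 = 1 ∧ a + d = 2 * ε := by
      have : (a + d - 2) * (a + d + 2) = 0 := by linear_combination heq
      rcases mul_eq_zero.1 this with h' | h'
      · exact ⟨1, by norm_num, by linarith⟩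
      · exact ⟨-1, by norm_num, by linarith⟩
    have hG : 0 < Int.gcd (d - ε) c := Int.gcd_pos_of_ne_zero_right _ hc0
    obtain ⟨p', r', hcop, hp', hr'⟩ := Int.exists_gcd_one hG
    set G : ℤ := (Int.gcd (d - ε) c : ℤ) with hGdef
    have hG0 : G ≠ 0 := by
      rw [hGdef]
      exact_mod_cast hG.ne'
    refine smallClass_conj γ p' (-r') (Int.isCoprime_iff_gcd_eq_one.2 hcop).neg_right ?_
    rw [← ha, ← hb, ← hc, ← hd]
    apply mul_left_cancel₀ (pow_ne_zero 2 hG0)
    have e1 : G ^ 2 * (c * p' ^ 2 + (d - a) * p' * -r' - b * (-r') ^ 2) =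
        c * (p' * G) ^ 2 - (d - a) * (p' * G) * (r' * G) - b * (r' * G) ^ 2 := by ring
    rw [e1, ← hp', ← hr']
    linear_combination c * hdet - c * ε * htr - c * hε

end Fermat.Agent.NV
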