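import Fermat.Agent.NV.Kappa

set_option autoImplicit false

/-!
# NV task E2d-KappaHecke

See the header of `Fermat/Agent/NV/Kappa.lean` for the sketches.
-/

open UpperHalfPlane ModularForm CongruenceSubgroup ModularCurve.Period
open scoped MatrixGroups Manifold

namespace Fermat.Agent.NV

open Fermat.Agent.S24 Fermat.Agent.S16

theorem kappa_hecke (N m ℓ : ℕ) [NeZero N] [NeZero m] (hℓ : ℓ.Prime) (hℓN : ¬ ℓ ∣ N)
    (ψ ψ' : LatN N) (h : ∀ γ : Gamma0 N,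
      ψ'.1 (Additive.ofMul γ) = heckeFun N hℓ (fun δ => ψ.1 (Additive.ofMul δ)) γ) :
    kappa N m ψ' = GES.TV N m ℓ (kappa N m ψ) := by
  have : NeZero ℓ := ⟨hℓ.ne_zero⟩
  have hm : 0 < m := Nat.pos_of_ne_zero (NeZero.ne m)
  rw [kappa_apply N m ψ, GES.TV_mk, kappa_eq_mk_iff]
  have h1 := hasChar_heckeF N ℓ hℓ hℓN hm (kappaRep_spec N m ψ)
  rw [heckeChr_expChr N m hℓ ψ.1 ψ'.1 h] at h1
  exact h1

theorem kappa_trans (N : ℕ) [NeZero N] {m m' : ℕ} [NeZero m] [NeZero m'] (hm : m' ∣ m)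
    (ψ : LatN N) : GES.Vm.trans Kb (FN N) hm (kappa N m ψ) = kappa N m' ψ := by
  obtain ⟨d, rfl⟩ := hm
  have hd : 0 < d := by
    rcases Nat.eq_zero_or_pos d with rfl | h
    · exact absurd (mul_zero m') (NeZero.ne (m' * 0))
    · exact h
  rw [kappa_apply N (m' * d) ψ, GES.Vm.trans_mk, eq_comm, kappa_eq_mk_iff]
  have h1 := (kappaRep_spec N (m' * d) ψ).of_mul
  rw [expChr_mul_pow N m' d hd] at h1
  exact h1

end Fermat.Agent.NV
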