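import Fermat.Agent.NV.Kappa

set_option autoImplicit false

/-!
# NV task E2c-KappaSurj

See the header of `Fermat/Agent/NV/Kappa.lean` for the sketches.
-/

open UpperHalfPlane ModularForm CongruenceSubgroup ModularCurve.Period
open scoped MatrixGroups Manifold

namespace Fermat.Agent.NV

open Fermat.Agent.S24 Fermat.Agent.S16

namespace KappaSurj

theorem isPrimitiveRoot_rootU_one (m : ℕ) [NeZero m] : IsPrimitiveRoot (rootU m 1) m := by
  have h1 : IsPrimitiveRoot ((rootU m 1 : ℂˣ) : ℂ) m := by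
    have h := Complex.isPrimitiveRoot_exp m (NeZero.ne m)
    have e : ((rootU m 1 : ℂˣ) : ℂ) = Complex.exp (2 * Real.pi * Complex.I / m) := by
      show Complex.exp (2 * Real.pi * Complex.I * ((1 : ℤ) : ℂ) / m) = _
      congr 1
      push_cast
      ring
    rw [e]
    exact h
  exact IsPrimitiveRoot.coe_units_iff.mp h1

theorem rootU_eq_zpow (m : ℕ) (k : ℤ) : rootU m k = rootU m 1 ^ k := by
  apply Units.ext
  rw [Units.val_zpow_eq_zpow_val]
  show Complex.exp (2 * Real.pi * Complex.I * (k : ℂ) / m) =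
    Complex.exp (2 * Real.pi * Complex.I * ((1 : ℤ) : ℂ) / m) ^ k
  rw [← Complex.exp_int_mul]
  congr 1
  push_cast
  ring

end KappaSurj

theorem kappa_surjective (N m : ℕ) [NeZero N] [NeZero m] : Function.Surjective (kappa N m) := by
  intro x
  obtain ⟨f, rfl⟩ := GES.Vm.mk_surjective x
  have hm : 0 < m := Nat.pos_of_ne_zero (NeZero.ne m)
  have hf0 : ((f : (FN N)ˣ) : FN N) ≠ 0 := Units.ne_zero _
  have hd : Ch.DivBy N m ((f : (FN N)ˣ) : FN N) := f.2
  obtain ⟨χ, hχ⟩ := Ch.exists_hasChar hm hf0 hd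
  have hsm : SmallTriv N χ := hχ.smallTriv hm hd
  have hpow : χ ^ m = 1 := hχ.pow_eq_one hm
  have hprim := KappaSurj.isPrimitiveRoot_rootU_one m
  obtain ⟨φ, hφpar, hφ⟩ := exists_int_lift N (MonoidHom.toAdditive χ)
    (Additive.ofMul (rootU m 1)) (by
      intro γ
      have h1 : χ (Additive.toMul γ) ^ m = 1 := by
        have := DFunLike.congr_fun hpow (Additive.toMul γ)
        simpa using this
      have h1' : ((χ (Additive.toMul γ) : ℂˣ) : ℂ) ^ m = 1 := by
        rw [← Units.val_pow_eq_pow_val, h1, Units.val_one]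
      obtain ⟨i, -, hi'⟩ := (IsPrimitiveRoot.coe_units_iff.mpr hprim).eq_pow_of_pow_eq_one h1'
      have hi : rootU m 1 ^ i = χ (Additive.toMul γ) := Units.ext (by
        rw [Units.val_pow_eq_pow_val, hi'])
      rw [AddSubgroup.mem_zmultiples_iff]
      refine ⟨(i : ℤ), ?_⟩
      rw [natCast_zsmul, ← ofMul_pow, hi]
      rfl) (by
      intro γ hγ
      show Additive.ofMul (χ γ) = 0
      rw [hsm γ hγ]
      rfl)
  refine ⟨⟨φ, hφpar⟩, ?_⟩
  rw [kappa_eq_mk_iff]
  have hchar : expChr N m φ = χ := by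
    ext γ
    rw [expChr_apply, KappaSurj.rootU_eq_zpow]
    have h2 := hφ (Additive.ofMul γ)
    rw [← ofMul_zpow] at h2
    have h3 : χ γ = rootU m 1 ^ φ (Additive.ofMul γ) := Additive.ofMul.injective h2
    rw [h3]
  rw [hchar]
  exact hχ

end Fermat.Agent.NV
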