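import Fermat.Agent.NV.KappaHecke
import Fermat.Agent.NV.KappaKer
import Fermat.Agent.NV.KappaSurj
import Fermat.Agent.S31.Lattice

set_option autoImplicit false

/-!
# NV: the deliverables of the chapter, in the form used by the final assembly

`kappa N m : S31.Lat N →+ GES.VN N m`, `kappa_ker`, `kappa_surjective`, `kappa_latT`, `kappa_trans`.
-/

namespace Fermat.Agent.NV

theorem kappa_latT (N m : ℕ) [NeZero N] [NeZero m] (ℓ : ℕ) (hℓ : ℓ.Prime) (hℓN : ¬ ℓ ∣ N)
    (h : S31.Lat N) : kappa N m (S31.latT N ℓ h) = GES.TV N m ℓ (kappa N m h) :=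
  kappa_hecke N m ℓ hℓ hℓN h (S31.latT N ℓ h) fun γ => S31.latT_apply N hℓ hℓN h γ

end Fermat.Agent.NV
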