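import Fermat.Agent.NV.Defs
import Fermat.Agent.S24.Inv

set_option autoImplicit false

/-!
# NV task A4-LevelOne

An `SL(2,ℤ)`-invariant holomorphic function on `ℍ`, meromorphic at `i∞`, is a polynomial in `j`.

SKETCH.  This is `Fermat.Agent.S24.inv_exists_complex` (file `Fermat/Agent/S24/Inv.lean`), whose proof only uses
`b ∈ perSub N` (first line: `Btil_le_perSub N hb`).  Copy the proof.
-/

open UpperHalfPlane ModularForm CongruenceSubgroup EisensteinSeries
open scoped MatrixGroups Manifold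

namespace Fermat.Agent.NV

open Fermat.Agent.S24

namespace LevelOne

open Fermat.Agent.S23 in
theorem exists_sum (N : ℕ) [NeZero N] (b : ℍ → ℂ) (hb : b ∈ perSub N)
    (hinv : ∀ g : SL(2, ℤ), act g b = b) :
    ∃ (m : ℕ) (c : ℕ → ℂ), ∀ z, b z = ∑ i ∈ Finset.range (m + 1), c i * jFun z ^ i := by
  obtain ⟨m, -, hmd, hbd⟩ := hb
  have hbinv : ∀ (g : SL(2, ℤ)) (z : ℍ), b (g • z) = b z := by
    intro g z
    have := congrFun (hinv g⁻¹) z
    simpa using this
  have hΔeq : ∀ (g : SL(2, ℤ)) (z : ℍ),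
      discriminant (g • z) = denom g z ^ (12 : ℤ) * discriminant z := by
    intro g z
    have hg : (g : GL (Fin 2) ℝ) ∈ 𝒮ℒ := ⟨g, rfl⟩
    exact SlashInvariantForm.slash_action_eqn'' CuspForm.discriminant hg z
  obtain ⟨H, hH⟩ := Fermat.Agent.ES.levelOne_of (k := 12 * (m : ℤ)) (b * discriminant ^ m) hmd
    (by
      intro g z
      simp only [Pi.mul_apply, Pi.pow_apply]
      rw [hbinv, hΔeq, mul_pow, ← zpow_natCast, ← zpow_mul]
      ring) hbd
  obtain ⟨c, hc⟩ := Fermat.Agent.S28.span_E4_Delta m (12 * (m : ℤ)) rfl H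
  refine ⟨m, c, ?_⟩
  let e4 : niceSub := ⟨E₄, isNice_of_modularFormClass one_mem_strictPeriods_SL E₄⟩
  let dl : niceSub := ⟨discriminant,
    isNice_of_modularFormClass one_mem_strictPeriods_SL CuspForm.discriminant⟩
  let h : niceSub := ⟨H, isNice_of_modularFormClass one_mem_strictPeriods_SL H⟩
  have hq : qHom h = qHom (∑ i ∈ Finset.range (m + 1), c i • (e4 ^ (3 * i) * dl ^ (m - i))) := by
    rw [map_sum]
    simp only [map_smul, map_mul, map_pow]
    show qExpansion 1 H = _
    rw [hc]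
    apply Finset.sum_congr rfl
    intro i _
    rw [PowerSeries.smul_eq_C_mul, mul_assoc]
    rfl
  have hfun := congrArg Subtype.val (qHom_injective hq)
  intro z
  have hz := congrFun hfun z
  have hz' : b z * discriminant z ^ m =
      ∑ i ∈ Finset.range (m + 1), c i * (E₄ z ^ (3 * i) * discriminant z ^ (m - i)) := by
    have h1 : H z = b z * discriminant z ^ m := by
      rw [hH]; rfl
    rw [← h1]
    have h2 : (h : ℍ → ℂ) z = H z := rfl
    rw [← h2, hz]
    simp only [AddSubmonoidClass.coe_finsetSum, Finset.sum_apply]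
    rfl
  have hΔ := discriminant_ne_zero z
  have hΔm : discriminant z ^ m ≠ 0 := pow_ne_zero _ hΔ
  apply mul_right_cancel₀ hΔm
  rw [hz', Finset.sum_mul]
  apply Finset.sum_congr rfl
  intro i hi
  have him : i ≤ m := by
    have := Finset.mem_range.mp hi
    omega
  rw [jFun, div_pow, ← pow_mul]
  have h3 : discriminant z ^ m = discriminant z ^ i * discriminant z ^ (m - i) := by
    rw [← pow_add]; congr 1; omega
  rw [h3]
  field_simp

end LevelOne

theorem exists_poly_of_inv (N : ℕ) [NeZero N] (b : ℍ → ℂ) (hb : b ∈ perSub N)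
    (hinv : ∀ g : SL(2, ℤ), act g b = b) :
    ∃ P : Polynomial ℂ, ∀ z, b z = P.eval (jFun z) := by
  obtain ⟨m, c, hbc⟩ := LevelOne.exists_sum N b hb hinv
  refine ⟨∑ i ∈ Finset.range (m + 1), Polynomial.monomial i (c i), fun z => ?_⟩
  rw [hbc z, Polynomial.eval_finsetSum]
  apply Finset.sum_congr rfl
  intro i _
  rw [Polynomial.eval_monomial]

end Fermat.Agent.NV
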