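import Fermat.Agent.NV.Desc
import Fermat.Agent.NV.EisChar
import Fermat.Agent.NV.Kc.DivA

set_option autoImplicit false

/-!
# NV task SURJ-Surj

Every character of exponent `m` which is trivial on the elements of small trace is the character of some `f ∈ F_ℚ̄`.

SKETCH.  `‖χ γ‖ = 1` since `χ ^ m = 1`.  `exists_equivariant` gives `h ∈ Wh N`, `h ≠ 0`, `χ`-equivariant.  `y = h ^ m ∈ Wh N` is invariant (`IsEqv.pow`, `χ ^ m = 1`).
`exists_ev` : `PhiB w * y = PhiB u`, `u w : C24.A0 N`, `w ≠ 0` (and `u ≠ 0`).  Put `a = u * w ^ (m-1)`, `f_ℂ = thetaIncl u / thetaIncl w`: `thetaIncl a = f_ℂ * (thetaIncl w) ^ m` and `(h * PhiB w) ^ m = PhiB a`; `h * PhiB w` is holomorphic and `χ`-equivariant (`C24.Ch.isEqv_PhiB`).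
So `C24.Ch.HasChar N m f_ℂ χ`.  `C24.Ch.HasChar.divBy` : `m ∣ div f_ℂ`.  `exists_descent`: `iotaF f₀ = f_ℂ * u' ^ m`; `HasChar.mul_pow`; `hasChar_ofC`.
-/

open UpperHalfPlane ModularForm CongruenceSubgroup
open scoped MatrixGroups Manifold

namespace Fermat.Agent.NV

open Fermat.Agent.S24

theorem exists_hasChar_of_smallTriv (N : ℕ) [NeZero N] (m : ℕ) (hm : 0 < m) (χ : Chr N)
    (hs : SmallTriv N χ) (hχ : χ ^ m = 1) : ∃ f : FN N, Ch.HasChar N m f χ := by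
  have hu : ∀ γ, ‖((χ γ : ℂˣ) : ℂ)‖ = 1 := by
    intro γ
    have h1 : ((χ γ : ℂˣ) : ℂ) ^ m = 1 := by
      have := congrArg (fun ψ : Chr N => ((ψ γ : ℂˣ) : ℂ)) hχ
      simpa using this
    exact Complex.norm_eq_one_of_pow_eq_one h1 hm.ne'
  obtain ⟨h, hW, h0, he⟩ := exists_equivariant N χ hs hu
  have hyW : h ^ m ∈ Wh N := pow_mem hW m
  have hyinv : IsEqv N 1 (h ^ m) := by
    have := he.pow m
    rwa [hχ] at this
  obtain ⟨u, w, hw, hev⟩ := exists_ev N (h ^ m) hyW hyinv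
  have hhd : MDiff h := by
    have h1 := (mem_Wh.1 hW) 1
    rw [act_one] at h1
    exact IsPer.mdiff h1
  have hwd : MDiff (C24.PhiB N w : ℍ → ℂ) := C24.Btil_le_holSub N (C24.PhiB N w).2
  have hθw : C24.thetaIncl N w ≠ 0 := fun h0 =>
    hw (C24.thetaIncl_injective N (h0.trans (map_zero _).symm))
  -- `u ≠ 0`
  have hw0 : (C24.PhiB N w : ℍ → ℂ) ≠ 0 := by
    intro h1
    apply hw
    apply C24.PhiB_injective N
    apply Subtype.ext
    rw [h1, map_zero]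
    rfl
  have hu0 : u ≠ 0 := by
    rintro rfl
    have h1 : ∀ z, (C24.PhiB N w : ℍ → ℂ) z * (h ^ m) z = 0 := by
      intro z
      rw [hev z, map_zero]
      rfl
    have h2 : (⟨(C24.PhiB N w : ℍ → ℂ), hwd⟩ : holSub) * ⟨h ^ m, hhd.pow m⟩ = 0 :=
      Subtype.ext (funext h1)
    have h3 : TPt I (⟨(C24.PhiB N w : ℍ → ℂ), hwd⟩ : holSub) * TPt I ⟨h ^ m, hhd.pow m⟩ = 0 := by
      rw [← map_mul, h2, map_zero]
    rcases mul_eq_zero.1 h3 with h4 | h4
    · exact hw0 (congrArg Subtype.val (TPt_injective I (h4.trans (map_zero _).symm)))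
    · have h5 : h ^ m = 0 := congrArg Subtype.val (TPt_injective I (h4.trans (map_zero _).symm))
      apply h0
      funext z
      have := congrFun h5 z
      simpa [hm.ne'] using this
  obtain ⟨k, rfl⟩ : ∃ k, m = k + 1 := ⟨m - 1, by omega⟩
  set fC : C24.FN N := C24.thetaIncl N u / C24.thetaIncl N w with hfC
  have hθu : C24.thetaIncl N u ≠ 0 := fun h0 =>
    hu0 (C24.thetaIncl_injective N (h0.trans (map_zero _).symm))
  have hfC0 : fC ≠ 0 := div_ne_zero hθu hθw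
  have hchar : C24.Ch.HasChar N (k + 1) fC χ := by
    refine ⟨u * w ^ k, C24.thetaIncl N w, h * (C24.PhiB N w : ℍ → ℂ),
      mul_ne_zero hu0 (pow_ne_zero _ hw), hθw, ?_, ⟨hhd.mul hwd, fun z => ?_⟩, ?_⟩
    · rw [map_mul, map_pow, hfC, pow_succ]
      field_simp
    · have h1 : ((C24.PhiB N (u * w ^ k) : C24.Btil N) : ℍ → ℂ) z =
          ((C24.PhiB N u : C24.Btil N) : ℍ → ℂ) z * ((C24.PhiB N w : C24.Btil N) : ℍ → ℂ) z ^ k := by
        rw [map_mul, map_pow]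
        rfl
      rw [h1, ← hev z, Pi.mul_apply, Pi.pow_apply]
      ring
    · have h1 := he.mul (C24.Ch.isEqv_PhiB N w)
      have h2 : χ * 1 = χ := mul_one χ
      rwa [h2] at h1
  have hdiv : C24.Ch.DivBy N (k + 1) fC := hchar.divBy hm hs
  obtain ⟨f₀, u', hu', hf₀⟩ := exists_descent N (k + 1) hm fC hfC0 hdiv
  refine ⟨f₀, hasChar_ofC hm ?_⟩
  rw [hf₀]
  exact hchar.mul_pow u' hu'

end Fermat.Agent.NV
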